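import Fermat.Agent.TWH1.Kum

/-!
# The lower bound for the first local cohomology group
-/

set_option autoImplicit false
set_option maxHeartbeats 400000
set_option linter.style.haveILetI false
set_option linter.unusedSectionVars false

namespace Fermat.Agent.TWH1

open Fermat.Agent.CFT Fermat.Agent.CFTLocal Fermat.Agent.EqDir Fermat.Agent.TWLocal

noncomputable section

section Triv

variable {G : Type*} [Group G] [Fintype G] {X : Type*} [AddCommGroup X] [DistribMulAction G X]
  [Finite X] {p : ℕ} [hp : Fact p.Prime]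

/-- the fixed points -/
def FixG (G X : Type*) [Group G] [AddCommGroup X] [DistribMulAction G X] : AddSubgroup X where
  carrier := {x | ∀ g : G, g • x = x}
  zero_mem' := fun g => smul_zero g
  add_mem' := fun {a b} ha hb g => by rw [smul_add, ha, hb]
  neg_mem' := fun {a} ha g => by rw [smul_neg, ha]

/-- homomorphisms to the trivial module -/
theorem card_fix_le (hG : (Fintype.card G).Coprime p) (hX : ∀ x : X, p • x = 0) :
    Nat.card (FixG G X) ≤ Nat.card (HomG G X (Triv (ZMod p))) := by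
  classical
  have : Finite (Triv (ZMod p)) := inferInstanceAs (Finite (ZMod p))
  obtain ⟨c, hc⟩ := exists_inverse (p := p) hG
  rw [card_dual (p := p) (X := FixG G X) fun x => Subtype.ext (hX x)]
  let avgF : X →+ FixG G X :=
    { toFun := fun x => ⟨∑ g : G, g • x, fun h => by
        rw [Finset.smul_sum, ← Equiv.sum_comp (Equiv.mulLeft h) (fun g : G => g • x)]
        refine Finset.sum_congr rfl fun g _ => ?_
        rw [Equiv.coe_mulLeft, mul_smul]⟩
      map_zero' := Subtype.ext (Finset.sum_eq_zero fun g _ => smul_zero g)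
      map_add' := fun x y => Subtype.ext (by
        show ∑ g : G, g • (x + y) = ∑ g : G, g • x + ∑ g : G, g • y
        rw [← Finset.sum_add_distrib]
        exact Finset.sum_congr rfl fun g _ => smul_add g x y) }
  have havg : ∀ (g : G) x, avgF (g • x) = avgF x := by
    intro g x
    apply Subtype.ext
    show ∑ h : G, h • g • x = ∑ h : G, h • x
    rw [← Equiv.sum_comp (Equiv.mulRight g) (fun h : G => h • x)]
    refine Finset.sum_congr rfl fun h _ => ?_
    rw [Equiv.coe_mulRight, mul_smul]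
  have havg2 : ∀ x : FixG G X, avgF (x : X) = Fintype.card G • x := by
    intro x
    apply Subtype.ext
    show ∑ h : G, h • (x : X) = Fintype.card G • (x : X)
    rw [Finset.sum_congr rfl fun h _ => x.2 h, Finset.sum_const, Finset.card_univ]
  refine Nat.card_le_card_of_injective (fun l : FixG G X →+ ZMod p =>
    (⟨(l.comp avgF : X →+ ZMod p), fun g x => congrArg l (havg g x)⟩ :
      HomG G X (Triv (ZMod p)))) ?_
  intro l l' hll
  ext x
  have h1 : ∀ y : X, l (avgF y) = l' (avgF y) := fun y =>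
    DFunLike.congr_fun (congrArg Subtype.val hll) y
  have h2 := h1 ((c • x : FixG G X) : X)
  rw [havg2, smul_comm, hc (FixG G X) (fun y => Subtype.ext (hX y))] at h2
  exact h2

end Triv

variable {q : ℕ} [hq : Fact q.Prime] {p : ℕ} [hp : Fact p.Prime]

section Main

variable {ζ : Om q} (hζ : IsPrimitiveRoot ζ p) {N : Subgroup (LG q)} [hNn : N.Normal] {M : Type*}
  [AddCommGroup M] [DistribMulAction (LG q) M] [Finite M] (hpM : ∀ m : M, p • m = 0)
  (hNM : ∀ n ∈ N, ∀ m : M, n • m = m) (hNζ : ∀ n ∈ N, ∀ t, n • zq hζ t = zq hζ t)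

include hpM hNM hNζ in
/-- invariants of `M` -/
theorem card_inv_le (hN : IsOpen (N : Set (LG q))) : Nat.card (FixG (LG q) M) ≤
    Nat.card (HomG (LG q ⧸ N) (XD (q := q) N M) (MK N p)) := by
  have := finite_XD (N := N) hζ hpM
  have := finite_MK p hN
  have hmem : ∀ (x : XD (q := q) N M) (m : M), x.1 m ∈ fix (LM q) N := fun x m n hn =>
    fix_tors hζ hNζ hn (tors_val hpM x.1 m)
  refine Nat.card_le_card_of_injective (fun m : FixG (LG q) M =>
    (⟨{ toFun := fun x => ⟨⟨x.1 m, hmem x m⟩, Subtype.ext (tors_val hpM x.1 (m : M))⟩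
        map_zero' := rfl
        map_add' := fun x y => rfl }, fun g x => by
      induction g using QuotientGroup.induction_on with
      | H g =>
        apply Subtype.ext
        apply Subtype.ext
        show (((g : LG q ⧸ N) • x : XD (q := q) N M)).1 (m : M) = g • x.1 (m : M)
        rw [XD_smul, m.2 g⁻¹]⟩ : HomG (LG q ⧸ N) (XD (q := q) N M) (MK N p))) ?_
  intro m m' h
  rw [← sub_eq_zero]
  apply Subtype.ext
  refine hom_LM_sep hζ hpM (fun x => ?_)
  have h1 : x ((m : M) - (m' : M)) = x (m : M) - x (m' : M) := map_sub x _ _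
  have h2 := DFunLike.congr_fun (congrArg Subtype.val h) ⟨x, mem_XD hζ hpM hNM hNζ x⟩
  have h3 : x (m : M) = x (m' : M) := congrArg (fun z : MK N p => ((z : fix (LM q) N) : LM q)) h2
  show x ((m : M) - (m' : M)) = 0
  rw [h1, h3, sub_self]

include hpM hNM hNζ in
theorem card_XD : Nat.card (XD (q := q) N M) = Nat.card M := by
  rw [← card_hom_LM hζ hpM (q := q)]
  exact Nat.card_congr
    { toFun := fun x => x.1
      invFun := fun x => ⟨x, mem_XD hζ hpM hNM hNζ x⟩
      left_inv := fun x => rfl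
      right_inv := fun x => rfl }

include hpM hNM hNζ in
theorem card_eq_le : Nat.card (HomEq (LG q) M (LM q)) ≤
    Nat.card (FixG (LG q ⧸ N) (XD (q := q) N M)) := by
  have := finite_XD (N := N) hζ hpM
  refine Nat.card_le_card_of_injective (fun φ : HomEq (LG q) M (LM q) =>
    (⟨⟨φ.1, mem_XD hζ hpM hNM hNζ φ.1⟩, fun g => by
      induction g using QuotientGroup.induction_on with
      | H g =>
        apply Subtype.ext
        apply HM.ext
        intro m
        rw [XD_smul]
        show g • φ.1 (g⁻¹ • m) = φ.1 m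
        rw [φ.2, smul_inv_smul]⟩ : FixG (LG q ⧸ N) (XD (q := q) N M))) ?_
  intro φ φ' h
  apply Subtype.ext
  exact congrArg (fun z : FixG (LG q ⧸ N) (XD (q := q) N M) => (z : XD (q := q) N M).1) h

include hpM hNM hNζ in
theorem finite_Z1l (hN : IsOpen (N : Set (LG q))) : Finite (Z1l (LG q) M) := by
  classical
  have := Subgroup.quotient_finite_of_isOpen N hN
  have := fin_U hζ hN (fun g hg t => hNζ g hg t)
  have : Finite (M →+ ZMod p) := DFunLike.finite _
  have hadd : ∀ F : Z1l (LG q) M, ∀ g : LG q, ∀ n ∈ N, F.1 (g * n) = F.1 g + g • F.1 n :=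
    fun F g n _ => F.2.1 g n
  have hres : ∀ F : Z1l (LG q) M, ∀ l : M →+ ZMod p,
      (fun n : N => l (F.1 n)) ∈ HomU p N := by
    intro F l
    refine ⟨fun g h => ?_, ?_⟩
    · show l (F.1 ((g : LG q) * (h : LG q))) = _
      rw [F.2.1, hNM _ g.2, map_add]
    · obtain ⟨V, hV, hV'⟩ := F.2.2
      exact ⟨V.subgroupOf N, hV.preimage continuous_subtype_val, fun g n hn =>
        congrArg l (hV' g n hn)⟩
  refine Finite.of_injective (β := (LG q ⧸ N → M) × ((M →+ ZMod p) → HomU p N))
    (fun F => (fun t => F.1 t.out, fun l => ⟨_, hres F l⟩)) ?_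
  intro F F' h
  have h1 : ∀ t : LG q ⧸ N, F.1 t.out = F'.1 t.out := fun t => congrFun (congrArg Prod.fst h) t
  have h2 : ∀ n ∈ N, F.1 n = F'.1 n := by
    intro n hn
    let _ : Module (ZMod p) M := AddCommGroup.zmodModule hpM
    by_contra hne
    obtain ⟨l, hl⟩ := sep_aux hpM (sub_ne_zero.mpr hne)
    apply hl
    rw [map_sub, sub_eq_zero]
    exact congrFun (congrArg Subtype.val (congrFun (congrArg Prod.snd h) l)) ⟨n, hn⟩
  apply Subtype.ext
  funext g
  obtain ⟨n, hn⟩ := QuotientGroup.mk_out_eq_mul N g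
  have h3 : g = (g : LG q ⧸ N).out * (n : LG q)⁻¹ := by rw [hn, mul_inv_cancel_right]
  rw [h3, hadd F _ _ (N.inv_mem n.2), hadd F' _ _ (N.inv_mem n.2), h1, h2 _ (N.inv_mem n.2)]

include hζ hpM hNM hNζ in
theorem card_H1_aux (hN : IsOpen (N : Set (LG q))) (hi : N.index.Coprime p) :
    Finite (H1l (LG q) M) ∧ Nat.card (FixG (LG q) M) * Nat.card (HomEq (LG q) M (LM q)) *
      (if q = p then Nat.card M else 1) ≤ Nat.card (H1l (LG q) M) := by
  classical
  have := finite_Z1l hζ hpM hNM hNζ hN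
  have hfin : Finite (H1l (LG q) M) := inferInstance
  refine ⟨hfin, ?_⟩
  have := Subgroup.quotient_finite_of_isOpen N hN
  have := Fintype.ofFinite (LG q ⧸ N)
  have := finite_XD (N := N) hζ hpM
  have hi' : (Fintype.card (LG q ⧸ N)).Coprime p := by
    rw [← Nat.card_eq_fintype_card]
    exact hi
  have hX : IsPr (LG q ⧸ N) p (XD (q := q) N M) := isPr_of_coprime hi' (p_XD hpM)
  obtain ⟨κ, hκ⟩ := exists_kum_inj hζ hpM hNM hNζ hN hi
  have h1 := Nat.card_le_card_of_injective κ hκ
  -- the radius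
  have r1 := rho_pos hζ
  have r2 := norm_p_pos (q := q) (p := p)
  have r3 := norm_natCast_le (q := q) p
  set ρ : ℝ := min (‖1 - ζ‖) (‖(p : Om q)‖) with hρdef
  have hρ0 : 0 < ρ := lt_min r1 r2
  have hρζ : ρ ≤ ‖1 - ζ‖ := min_le_left _ _
  have hρp : ρ ≤ ‖(p : Om q)‖ := min_le_right _ _
  have h2 := count_K p hN hζ hX ρ hρ0 (hρp.trans r3) hρp hρζ
  have h3 := card_inv_le hζ hpM hNM hNζ hN
  have h4 : Nat.card (HomEq (LG q) M (LM q)) ≤
      Nat.card (HomG (LG q ⧸ N) (XD (q := q) N M) (Triv (ZMod p))) :=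
    (card_eq_le hζ hpM hNM hNζ).trans (card_fix_le hi' (p_XD hpM))
  have := finite_WB p ρ hρ0 hN
  have h5 : (if q = p then Nat.card M else 1) ≤
      Nat.card (HomG (LG q ⧸ N) (XD (q := q) N M) (WB N p ρ hρ0)) := by
    split_ifs with hqp
    · subst hqp
      rw [← card_XD hζ hpM hNM hNζ]
      exact count_B hN (p_XD hpM) hX hρ0
    · exact Nat.card_pos
  calc Nat.card (FixG (LG q) M) * Nat.card (HomEq (LG q) M (LM q)) *
      (if q = p then Nat.card M else 1) ≤
      Nat.card (HomG (LG q ⧸ N) (XD (q := q) N M) (MK N p)) *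
      Nat.card (HomG (LG q ⧸ N) (XD (q := q) N M) (Triv (ZMod p))) *
      Nat.card (HomG (LG q ⧸ N) (XD (q := q) N M) (WB N p ρ hρ0)) :=
        Nat.mul_le_mul (Nat.mul_le_mul h3 h4) h5
    _ = Nat.card (HomG (LG q ⧸ N) (XD (q := q) N M) (WK N p)) := by rw [h2]; ring
    _ ≤ _ := h1

end Main

/-- the kernel of the cyclotomic character -/
theorem exists_Nz {ζ : Om q} (hζ : IsPrimitiveRoot ζ p) : ∃ Z : Subgroup (LG q), Z.Normal ∧
    IsOpen (Z : Set (LG q)) ∧ Z.index.Coprime p ∧ ∀ n ∈ Z, ∀ t, n • zq hζ t = zq hζ t := by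
  have : NeZero p := ⟨hp.out.ne_zero⟩
  refine ⟨(hζ.autToPow ℚ_[q]).ker, inferInstance, ?_, ?_, ?_⟩
  · have hfd : FiniteDimensional ℚ_[q] (IntermediateField.adjoin ℚ_[q] {ζ}) :=
      IntermediateField.adjoin.finiteDimensional (Algebra.IsIntegral.isIntegral _)
    refine Subgroup.isOpen_mono (H₁ := (IntermediateField.adjoin ℚ_[q] {ζ}).fixingSubgroup) ?_
      (IntermediateField.fixingSubgroup_isOpen _)
    intro g hg
    rw [MonoidHom.mem_ker]
    rw [IntermediateField.mem_fixingSubgroup_iff] at hg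
    have h1 : g ζ = ζ := hg ζ (IntermediateField.mem_adjoin_simple_self _ ζ)
    have h2 := hζ.autToPow_spec ℚ_[q] g
    rw [h1] at h2
    apply Units.ext
    rw [Units.val_one]
    have h3 : ζ ^ ((hζ.autToPow ℚ_[q] g : (ZMod p)ˣ) : ZMod p).val = ζ ^ (1 : ZMod p).val := by
      rw [h2]
      have : Fact (1 < p) := ⟨hp.out.one_lt⟩
      rw [ZMod.val_one, pow_one]
    exact ZMod.val_injective p (hζ.pow_inj (ZMod.val_lt _) (ZMod.val_lt _) h3)
  · rw [Subgroup.index_ker]
    have h1 := Subgroup.card_subgroup_dvd_card (hζ.autToPow ℚ_[q]).range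
    rw [Nat.card_eq_fintype_card (α := (ZMod p)ˣ), ZMod.card_units p] at h1
    refine Nat.Coprime.coprime_dvd_left h1 ?_
    rw [Nat.coprime_comm, hp.out.coprime_iff_not_dvd]
    intro h2
    have h3 := Nat.le_of_dvd (by have := hp.out.two_le; omega) h2
    have := hp.out.two_le
    omega
  · intro n hn t
    rw [MonoidHom.mem_ker] at hn
    have h2 := hζ.autToPow_spec ℚ_[q] n
    rw [hn] at h2
    have : Fact (1 < p) := ⟨hp.out.one_lt⟩
    rw [Units.val_one, ZMod.val_one, pow_one] at h2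
    apply el_injective
    rw [el_smul, el_zq, map_pow, ← h2]

/-- **(W2b)** the lower bound for the first local cohomology group, for a finite module killed
by `p` on which the local Galois group acts through a quotient of order prime to `p`. -/
theorem card_H1_ge_hom {M : Type*} [AddCommGroup M] [DistribMulAction (LG q) M] [Finite M]
    (hpM : ∀ m : M, p • m = 0) (N : Subgroup (LG q)) [hNn : N.Normal]
    (hN : IsOpen (N : Set (LG q))) (hi : N.index.Coprime p)
    (hNM : ∀ n ∈ N, ∀ m : M, n • m = m) :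
    Finite (H1l (LG q) M) ∧ Nat.card (FixG (LG q) M) * Nat.card (HomEq (LG q) M (LM q)) *
      (if q = p then Nat.card M else 1) ≤ Nat.card (H1l (LG q) M) := by
  have : NeZero ((p : ℕ) : Om q) := ⟨Nat.cast_ne_zero.mpr hp.out.ne_zero⟩
  obtain ⟨ζ, hζ⟩ := HasEnoughRootsOfUnity.exists_primitiveRoot (Om q) p
  obtain ⟨Z, hZn, hZo, hZi, hZ⟩ := exists_Nz hζ
  have hidx : (Z ⊓ N).index.Coprime p := by
    rw [← Subgroup.relIndex_mul_index (inf_le_right : Z ⊓ N ≤ N), Subgroup.inf_relIndex_right]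
    exact Nat.Coprime.mul_left
      (Nat.Coprime.coprime_dvd_left (Subgroup.relIndex_dvd_index_of_normal Z N) hZi) hi
  exact card_H1_aux hζ (N := Z ⊓ N) hpM (fun n hn m => hNM n hn.2 m)
    (fun n hn t => hZ n hn.1 t) (open_inf hZo hN) hidx

/-- **(W2b)** -/
theorem card_H1_ge {M : Type*} [AddCommGroup M] [DistribMulAction (LG q) M] [Finite M]
    (hpM : ∀ m : M, p • m = 0) (N : Subgroup (LG q)) [hNn : N.Normal]
    (hN : IsOpen (N : Set (LG q))) (hi : N.index.Coprime p)
    (hNM : ∀ n ∈ N, ∀ m : M, n • m = m) :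
    Finite (H1l (LG q) M) ∧ Nat.card (FixG (LG q) M) * Nat.card (H2l (LG q) M) *
      (if q = p then Nat.card M else 1) ≤ Nat.card (H1l (LG q) M) := by
  obtain ⟨h1, h2⟩ := card_H1_ge_hom hpM N hN hi hNM
  refine ⟨h1, le_trans ?_ h2⟩
  exact Nat.mul_le_mul (Nat.mul_le_mul le_rfl (card_H2_le hpM ⟨N, hN, hNM⟩).2) le_rfl

end

end Fermat.Agent.TWH1
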