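import Fermat.Agent.TWLocal.LC
import Fermat.Agent.EqDir.Higman

/-!
# Extension of homomorphisms to cocycles by averaging
-/

set_option autoImplicit false
set_option maxHeartbeats 400000
set_option linter.style.haveILetI false
set_option linter.unusedSectionVars false

namespace Fermat.Agent.TWH1

open Fermat.Agent.CFT Fermat.Agent.EqDir Fermat.Agent.TWLocal

noncomputable section

variable {D : Type*} [Group D] [TopologicalSpace D] {N : Subgroup D} [hNn : N.Normal] {M : Type*}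
  [AddCommGroup M] [DistribMulAction D M] {p : ℕ} [hp : Fact p.Prime]

theorem mk_out_inv_mul (g : D) (t : D ⧸ N) :
    ((g : D ⧸ N) * t).out⁻¹ * g * t.out ∈ N := by
  rw [mul_assoc, ← QuotientGroup.eq, QuotientGroup.out_eq', QuotientGroup.mk_mul,
    QuotientGroup.out_eq']

/-- **extension by averaging** -/
theorem exists_cocycle [Finite (D ⧸ N)] (hi : N.index.Coprime p) (hpM : ∀ m : M, p • m = 0)
    (hNM : ∀ n ∈ N, ∀ m : M, n • m = m) (c : D → M)
    (hc1 : ∀ n ∈ N, ∀ n' ∈ N, c (n * n') = c n + c n')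
    (hc2 : ∀ g : D, ∀ n ∈ N, c (g * n * g⁻¹) = g • c n)
    (V : Subgroup D) (hV : IsOpen (V : Set D)) (hVN : V ≤ N) (hcV : ∀ v ∈ V, c v = 0) :
    ∃ F ∈ Z1l D M, ∀ n ∈ N, F n = c n := by
  classical
  have := Fintype.ofFinite (D ⧸ N)
  obtain ⟨k, hk⟩ := exists_inverse (p := p) hi
  let F₀ : D → M := fun g => ∑ t : D ⧸ N,
    ((g : D ⧸ N) * t).out • c (((g : D ⧸ N) * t).out⁻¹ * g * t.out)
  have hF₀ : ∀ g, F₀ g = ∑ t : D ⧸ N,
    ((g : D ⧸ N) * t).out • c (((g : D ⧸ N) * t).out⁻¹ * g * t.out) := fun g => rfl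
  have hcoc : ∀ g h, F₀ (g * h) = F₀ g + g • F₀ h := by
    intro g h
    have h1 : F₀ g = ∑ t : D ⧸ N, ((g : D ⧸ N) * ((h : D ⧸ N) * t)).out •
        c (((g : D ⧸ N) * ((h : D ⧸ N) * t)).out⁻¹ * g * ((h : D ⧸ N) * t).out) := by
      rw [hF₀]
      exact (Equiv.sum_comp (Equiv.mulLeft (h : D ⧸ N)) (fun t : D ⧸ N =>
        ((g : D ⧸ N) * t).out • c (((g : D ⧸ N) * t).out⁻¹ * g * t.out))).symm
    rw [h1, hF₀ (g * h), hF₀ h, Finset.smul_sum, ← Finset.sum_add_distrib]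
    refine Finset.sum_congr rfl fun t _ => ?_
    rw [QuotientGroup.mk_mul, mul_assoc (g : D ⧸ N)]
    set s1 := ((g : D ⧸ N) * ((h : D ⧸ N) * t)).out with hs1
    set s2 := ((h : D ⧸ N) * t).out with hs2
    have h2 : s1⁻¹ * (g * h) * t.out = (s1⁻¹ * g * s2) * (s2⁻¹ * h * t.out) := by group
    have h3 : s1⁻¹ * g * s2 ∈ N := mk_out_inv_mul g _
    have h4 : s2⁻¹ * h * t.out ∈ N := mk_out_inv_mul h _
    rw [h2, hc1 _ h3 _ h4, smul_add]
    congr 1
    have h5 : s1 = g * s2 * (s1⁻¹ * g * s2)⁻¹ := by group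
    conv_lhs => rw [h5]
    rw [mul_smul, hNM _ (N.inv_mem h3), mul_smul]
  have hres : ∀ n ∈ N, F₀ n = N.index • c n := by
    intro n hn
    have h1 : (n : D ⧸ N) = 1 := (QuotientGroup.eq_one_iff n).mpr hn
    have h2 : ∀ t : D ⧸ N, ((n : D ⧸ N) * t).out • c (((n : D ⧸ N) * t).out⁻¹ * n * t.out) = c n := by
      intro t
      rw [h1, one_mul]
      have h3 := hc2 t.out⁻¹ n hn
      rw [inv_inv] at h3
      rw [h3, smul_inv_smul]
    rw [hF₀, Finset.sum_congr rfl fun t _ => h2 t, Finset.sum_const, Finset.card_univ,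
      ← Nat.card_eq_fintype_card]
    rfl
  have hres' : ∀ n ∈ N, k • F₀ n = c n := fun n hn => by rw [hres n hn]; exact hk M hpM _
  refine ⟨fun g => k • F₀ g, ⟨fun g h => ?_, V, hV, fun g v hv => ?_⟩, hres'⟩
  · show k • F₀ (g * h) = k • F₀ g + g • k • F₀ h
    rw [hcoc, smul_add, smul_comm g k]
  · show k • F₀ (g * v) = k • F₀ g
    rw [hcoc, smul_add, smul_comm k g, hres' v (hVN hv), hcV v hv, smul_zero, add_zero]

end

end Fermat.Agent.TWH1
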