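import Fermat.Agent.TWH1.Les

/-!
# The lower bound for the first local cohomology group: devissage
-/

set_option autoImplicit false
set_option linter.style.haveILetI false
set_option maxHeartbeats 400000

namespace Fermat.Agent.TWH1

open Fermat.Agent.CFT Fermat.Agent.TWLocal Fermat.Agent.CFTLocal

universe u

noncomputable section

section Cards

variable {U : Type*} [Group U] [TopologicalSpace U] [IsTopologicalGroup U] [CompactSpace U]
  (M : Type*) [AddCommGroup M] [DistribMulAction U M]

theorem h0_eq_card : h0 U M = Nat.card (FixG U M) := by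
  refine Nat.card_congr (Equiv.subtypeEquivRight fun m => ?_)
  exact ⟨fun h g => h g trivial, fun h g _ => h g⟩

theorem h1_eq_card : h1 U M = Nat.card (H1l U M) := rfl

theorem h2_eq_card : h2 U M = Nat.card (H2l U M) := rfl

end Cards

variable {p : ℕ} [hp : Fact p.Prime] {q : ℕ} [hq : Fact q.Prime]

/-- the lower bound -/
def LB (p q : ℕ) [Fact q.Prime] (M : Type*) [AddCommGroup M] [DistribMulAction (LG q) M] : Prop :=
  Finite (H1l (LG q) M) ∧ Nat.card (FixG (LG q) M) * Nat.card (H2l (LG q) M) *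
      (if q = p then Nat.card M else 1) ≤ Nat.card (H1l (LG q) M)

theorem card_ses {A M C : Type*} [AddCommGroup A] [AddCommGroup M] [AddCommGroup C]
    {i : A →+ M} {j : M →+ C} (hi : Function.Injective i) (hj : Function.Surjective j)
    (he : ∀ m, j m = 0 ↔ ∃ a, i a = m) : Nat.card M = Nat.card A * Nat.card C := by
  have h1 : Nat.card M = Nat.card (M ⧸ j.ker) * Nat.card j.ker :=
    AddSubgroup.card_eq_card_quotient_mul_card_addSubgroup _
  rw [h1, mul_comm]
  congr 1
  · symm
    refine Nat.card_congr (Equiv.ofBijective (fun a : A => (⟨i a, (he _).mpr ⟨a, rfl⟩⟩ : j.ker))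
      ⟨fun a b h => hi (congrArg Subtype.val h), ?_⟩)
    rintro ⟨m, hm⟩
    obtain ⟨a, ha⟩ := (he m).mp hm
    exact ⟨a, Subtype.ext ha⟩
  · exact Nat.card_congr (QuotientAddGroup.quotientKerEquivOfSurjective j hj).toEquiv

/-- **devissage** -/
theorem LB.ses {A M C : Type*} [AddCommGroup A] [AddCommGroup M] [AddCommGroup C]
    [DistribMulAction (LG q) A] [DistribMulAction (LG q) M] [DistribMulAction (LG q) C]
    [Finite A] [Finite M] [Finite C] (hpM : ∀ m : M, p • m = 0)
    {i : A →+ M} {j : M →+ C} (h : Ses (LG q) i j) (hM : Sm (LG q) M) (hA : LB p q A)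
    (hC : LB p q C) : LB p q M := by
  have hpA : ∀ a : A, p • a = 0 := fun a => h.inj (by rw [map_nsmul, hpM, map_zero])
  have hpC : ∀ c : C, p • c = 0 := fun c => by
    obtain ⟨m, rfl⟩ := h.surj c
    rw [← map_nsmul, hpM, map_zero]
  haveI := hA.1
  haveI := hC.1
  have hA1 : h1 (LG q) A ≠ 0 := by rw [h1_eq_card]; exact Nat.card_pos.ne'
  have hC1 : h1 (LG q) C ≠ 0 := by rw [h1_eq_card]; exact Nat.card_pos.ne'
  haveI := (card_H2_le hpC (h.lvC hM)).1
  have hC2 : h2 (LG q) C ≠ 0 := by rw [h2_eq_card]; exact Nat.card_pos.ne'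
  have hM1 := h.h1_ne hM hA1 hC1
  refine ⟨Nat.finite_of_card_ne_zero (by rw [← h1_eq_card]; exact hM1), ?_⟩
  have h2 := h.count hM hC2
  have h3 := hA.2
  have h4 := hC.2
  rw [← h0_eq_card, ← h1_eq_card, ← h2_eq_card] at h3 h4 ⊢
  have h5 := card_ses h.inj h.surj h.exact
  set w : ℕ → ℕ := fun n => if q = p then n else 1 with hw
  have hww : w (Nat.card M) = w (Nat.card A) * w (Nat.card C) := by
    simp only [hw]
    split_ifs
    · exact h5
    · rfl
  change h0 (LG q) M * TWH1.h2 (LG q) M * w (Nat.card M) ≤ h1 (LG q) M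
  change h0 (LG q) A * TWH1.h2 (LG q) A * w (Nat.card A) ≤ h1 (LG q) A at h3
  change h0 (LG q) C * TWH1.h2 (LG q) C * w (Nat.card C) ≤ h1 (LG q) C at h4
  have hpos : 0 < h1 (LG q) A * h1 (LG q) C :=
    Nat.mul_pos (Nat.pos_of_ne_zero hA1) (Nat.pos_of_ne_zero hC1)
  refine Nat.le_of_mul_le_mul_right ?_ hpos
  calc h0 (LG q) M * TWH1.h2 (LG q) M * w (Nat.card M) * (h1 (LG q) A * h1 (LG q) C)
      = (h0 (LG q) M * TWH1.h2 (LG q) M * (h1 (LG q) A * h1 (LG q) C)) *
          (w (Nat.card A) * w (Nat.card C)) := by rw [hww]; ring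
    _ ≤ (h1 (LG q) M * ((h0 (LG q) A * TWH1.h2 (LG q) A) *
          (h0 (LG q) C * TWH1.h2 (LG q) C))) * (w (Nat.card A) * w (Nat.card C)) :=
        Nat.mul_le_mul_right _ h2
    _ = h1 (LG q) M * ((h0 (LG q) A * TWH1.h2 (LG q) A * w (Nat.card A)) *
          (h0 (LG q) C * TWH1.h2 (LG q) C * w (Nat.card C))) := by ring
    _ ≤ h1 (LG q) M * (h1 (LG q) A * h1 (LG q) C) :=
        Nat.mul_le_mul_left _ (Nat.mul_le_mul h3 h4)

/-- fixed points of a group acting through a `p`-group -/
theorem exists_fixed_of_pgroup {G : Type*} [Group G] (P : Subgroup G) {M : Type*} [AddCommGroup M]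
    [DistribMulAction G M] [Finite M] [Nontrivial M] (hpM : ∀ m : M, p • m = 0)
    (hP : ∀ g ∈ P, ∃ k : ℕ, ∀ m : M, g ^ p ^ k • m = m) :
    ∃ m : M, m ≠ 0 ∧ ∀ g ∈ P, g • m = m := by
  classical
  let Q : Subgroup (Equiv.Perm M) := P.map (MulAction.toPermHom G M)
  have hQ : IsPGroup p Q := by
    rintro ⟨x, g, hg, rfl⟩
    obtain ⟨k, hk⟩ := hP g hg
    refine ⟨k, Subtype.ext ?_⟩
    show (MulAction.toPermHom G M g) ^ p ^ k = 1
    rw [← map_pow]
    ext m
    exact hk m
  have hdvd : p ∣ Nat.card M := by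
    obtain ⟨m, hm⟩ := exists_ne (0 : M)
    have h2 : addOrderOf m = p := addOrderOf_eq_prime (hpM m) hm
    rw [← h2]
    exact addOrderOf_dvd_natCard m
  obtain ⟨m, hm, hne⟩ := hQ.exists_fixed_point_of_prime_dvd_card_of_fixed_point M hdvd (a := 0) (by
    rw [MulAction.mem_fixedPoints]
    rintro ⟨x, g, hg, rfl⟩
    exact smul_zero g)
  refine ⟨m, hne.symm, fun g hg => ?_⟩
  rw [MulAction.mem_fixedPoints] at hm
  exact hm ⟨_, g, hg, rfl⟩

/-- the fixed points of a normal subgroup form a submodule -/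
def fixN {G : Type*} [Group G] (P : Subgroup G) (M : Type*) [AddCommGroup M]
    [DistribMulAction G M] : AddSubgroup M where
  carrier := {m | ∀ g ∈ P, g • m = m}
  zero_mem' := fun g _ => smul_zero g
  add_mem' := fun {a b} ha hb g hg => by rw [smul_add, ha g hg, hb g hg]
  neg_mem' := fun {a} ha g hg => by rw [smul_neg, ha g hg]

theorem smul_mem_fixN {G : Type*} [Group G] (P : Subgroup G) [P.Normal] {M : Type*}
    [AddCommGroup M] [DistribMulAction G M] (g : G) {m : M} (hm : m ∈ fixN P M) :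
    g • m ∈ fixN P M := by
  intro n hn
  have h1 := hm (g⁻¹ * n * g) (by
    have := (inferInstance : P.Normal).conj_mem n hn g⁻¹
    rwa [inv_inv] at this)
  rw [mul_smul, mul_smul, inv_smul_eq_iff] at h1
  exact h1

/-- **(W2b), final form**: the local Galois group acts through a group with normal Sylow
`p`-subgroup. -/
theorem card_H1_ge' (P : Subgroup (LG q)) [hPn : P.Normal] (hPo : IsOpen (P : Set (LG q)))
    (hPi : P.index.Coprime p) (n : ℕ) : ∀ (M : Type u) [AddCommGroup M]
    [DistribMulAction (LG q) M] [Finite M], Nat.card M ≤ n → (∀ m : M, p • m = 0) →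
    Sm (LG q) M → (∀ g ∈ P, ∃ k : ℕ, ∀ m : M, g ^ p ^ k • m = m) → LB p q M := by
  induction n with
  | zero =>
    intro M _ _ _ h
    have : 0 < Nat.card M := Nat.card_pos
    omega
  | succ n ih =>
    intro M _ _ _ hcard hpM hsm hP
    by_cases htop : ∀ m : M, m ∈ fixN P M
    · exact card_H1_ge hpM P hPo hPi fun g hg m => htop m g hg
    · haveI hnt : Nontrivial M := by
        by_contra hcon
        rw [not_nontrivial_iff_subsingleton] at hcon
        exact htop fun m => by rw [Subsingleton.elim m 0]; exact zero_mem _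
      obtain ⟨m₀, hm₀, hm₀P⟩ := exists_fixed_of_pgroup P hpM hP
      let A := fixN P M
      letI actA : DistribMulAction (LG q) A :=
        { smul := fun g m => ⟨g • m.1, smul_mem_fixN P g m.2⟩
          one_smul := fun m => Subtype.ext (one_smul _ m.1)
          mul_smul := fun g h m => Subtype.ext (mul_smul g h m.1)
          smul_zero := fun g => Subtype.ext (smul_zero g)
          smul_add := fun g a b => Subtype.ext (smul_add g a.1 b.1) }
      letI actC : DistribMulAction (LG q) (M ⧸ A) := quotDMA A fun g m hm => smul_mem_fixN P g hm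
      have hses : Ses (LG q) A.subtype (QuotientAddGroup.mk' A) :=
        { inj := Subtype.coe_injective
          surj := QuotientAddGroup.mk'_surjective A
          exact := fun m => by
            rw [QuotientAddGroup.mk'_apply, QuotientAddGroup.eq_zero_iff]
            exact ⟨fun h => ⟨⟨m, h⟩, rfl⟩, by rintro ⟨a, rfl⟩; exact a.2⟩
          ieq := fun _ _ => rfl
          jeq := fun _ _ => rfl }
      have hAC := card_ses hses.inj hses.surj hses.exact
      have hApos : 0 < Nat.card A := Nat.card_pos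
      have hCpos : 0 < Nat.card (M ⧸ A) := Nat.card_pos
      have hA1 : 1 < Nat.card A := by
        haveI : Nontrivial A := ⟨⟨m₀, hm₀P⟩, 0, fun h => hm₀ (congrArg Subtype.val h)⟩
        exact Finite.one_lt_card
      have hC1 : Nat.card (M ⧸ A) < Nat.card M := by
        rw [hAC]
        exact lt_mul_of_one_lt_left hCpos hA1
      have hLA : LB p q A := card_H1_ge (fun a => Subtype.ext (hpM a.1)) P hPo hPi
        fun g hg m => Subtype.ext (m.2 g hg)
      have hLC : LB p q (M ⧸ A) := by
        refine ih (M ⧸ A) (by omega) (fun c => ?_) (hses.lvC hsm) (fun g hg => ?_)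
        · obtain ⟨m, rfl⟩ := hses.surj c
          rw [← map_nsmul, hpM, map_zero]
        · obtain ⟨k, hk⟩ := hP g hg
          refine ⟨k, fun c => ?_⟩
          obtain ⟨m, rfl⟩ := hses.surj c
          rw [← hses.jeq, hk]
      exact LB.ses hpM hses hsm hLA hLC

/-- **(W2b), final form**: the local Galois group acts through a group with normal Sylow
`p`-subgroup. -/
theorem card_H1_ge_of_normal (P : Subgroup (LG q)) [hPn : P.Normal]
    (hPo : IsOpen (P : Set (LG q))) (hPi : P.index.Coprime p) {M : Type u} [AddCommGroup M]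
    [DistribMulAction (LG q) M] [Finite M] (hpM : ∀ m : M, p • m = 0)
    (N : Subgroup (LG q)) (hN : IsOpen (N : Set (LG q))) (hNM : ∀ n ∈ N, ∀ m : M, n • m = m)
    (hP : ∀ g ∈ P, ∃ k : ℕ, ∀ m : M, g ^ p ^ k • m = m) :
    Finite (H1l (LG q) M) ∧ Nat.card (FixG (LG q) M) * Nat.card (H2l (LG q) M) *
      (if q = p then Nat.card M else 1) ≤ Nat.card (H1l (LG q) M) :=
  card_H1_ge' P hPo hPi _ M le_rfl hpM ⟨N, hN, hNM⟩ hP

end

end Fermat.Agent.TWH1
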