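import Fermat.Agent.TWH1.Loc3
import Fermat.Agent.TWH1.CorZ
import Fermat.Agent.CFT.HM

/-!
# Kummer theory with coefficients
-/

set_option autoImplicit false
set_option maxHeartbeats 400000
set_option linter.style.haveILetI false
set_option linter.unusedSectionVars false

namespace Fermat.Agent.TWH1

open Fermat.Agent.CFT Fermat.Agent.CFTLocal Fermat.Agent.EqDir Fermat.Agent.TWLocal

noncomputable section

variable {q : ℕ} [hq : Fact q.Prime] {p : ℕ} [hp : Fact p.Prime] {ζ : Om q}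
  (hζ : IsPrimitiveRoot ζ p)

section Dual

variable {M : Type*} [AddCommGroup M] [Finite M] (hpM : ∀ m : M, p • m = 0)

include hpM hζ in
/-- homomorphisms to the multiplicative group -/
theorem card_hom_LM : Nat.card (M →+ LM q) = Nat.card M := by
  rw [card_dual hpM]
  symm
  refine Nat.card_congr (Equiv.ofBijective (fun f : M →+ ZMod p => (zq hζ).comp f)
    ⟨fun f g h => ?_, fun φ => ?_⟩)
  · ext m
    exact zq_inj hζ (DFunLike.congr_fun h m)
  · have h1 : ∀ m, ∃ t, zq hζ t = φ m := fun m =>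
      zq_tors hζ _ (by rw [← map_nsmul, hpM, map_zero])
    choose f hf using h1
    refine ⟨AddMonoidHom.mk' f fun a b => zq_inj hζ ?_, ?_⟩
    · rw [map_add, hf, hf, hf, map_add]
    · ext m
      exact congrArg _ (hf m)

include hpM in
theorem sep_aux [Module (ZMod p) M] {m : M} (hm : m ≠ 0) : ∃ f : M →+ ZMod p, f m ≠ 0 := by
  by_contra hcon
  push Not at hcon
  apply hm
  rw [← Module.forall_dual_apply_eq_zero_iff (ZMod p) m]
  exact fun φ => hcon φ.toAddMonoidHom

include hpM hζ in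
theorem hom_LM_sep {m : M} (h : ∀ x : M →+ LM q, x m = 0) : m = 0 := by
  let _ : Module (ZMod p) M := AddCommGroup.zmodModule hpM
  by_contra hm
  obtain ⟨f, hf⟩ := sep_aux hpM hm
  apply hf
  apply zq_inj hζ
  rw [map_zero]
  exact h ((zq hζ).comp f)

omit [Finite M] in
include hpM in
theorem p_hom (x : M →+ LM q) : (NSMul.toSMul.smul p x : M →+ LM q) = 0 := by
  refine AddMonoidHom.ext fun m => ?_
  show p • x m = 0
  rw [← map_nsmul, hpM, map_zero]

include hpM hζ in
/-- double duality -/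
theorem bidual (F : (M →+ LM q) →+ LM q) : ∃ m : M, ∀ x : M →+ LM q, x m = F x := by
  have := finite_hom_LM hζ hpM (q := q)
  have := finite_hom_LM hζ (M := M →+ LM q) (p_hom hpM)
  let ev : M → ((M →+ LM q) →+ LM q) := fun m => AddMonoidHom.eval m
  have hev : Function.Injective ev := by
    intro m m' h
    rw [← sub_eq_zero]
    refine hom_LM_sep hζ hpM fun x => ?_
    rw [map_sub, sub_eq_zero]
    exact DFunLike.congr_fun h x
  have hcard : Nat.card ((M →+ LM q) →+ LM q) ≤ Nat.card M := by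
    rw [card_hom_LM hζ (M := M →+ LM q) (p_hom hpM), card_hom_LM hζ hpM]
  obtain ⟨m, hm⟩ := (hev.bijective_of_nat_card_le hcard).2 F
  exact ⟨m, fun x => DFunLike.congr_fun hm x⟩

end Dual

section Kummer

variable (N : Subgroup (LG q)) [hNn : N.Normal] (M : Type*) [AddCommGroup M]
  [DistribMulAction (LG q) M]

/-- the dual module -/
abbrev HD : Type _ := HM (MonoidHom.id (LG q)) M (LM q)

/-- the dual module with the action of the quotient -/
abbrev XD : Type _ := fix (HD (q := q) M) N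

variable {N M} [Finite M] (hpM : ∀ m : M, p • m = 0) (hNM : ∀ n ∈ N, ∀ m : M, n • m = m)
  (hNζ : ∀ n ∈ N, ∀ t, n • zq hζ t = zq hζ t)

include hNζ in
theorem fix_tors {n : LG q} (hn : n ∈ N) {c : LM q} (hc : p • c = 0) : n • c = c := by
  obtain ⟨t, rfl⟩ := zq_tors hζ c hc
  exact hNζ n hn t

include hpM in
theorem tors_val (x : M →+ LM q) (m : M) : p • x m = 0 := by rw [← map_nsmul, hpM, map_zero]

include hpM hNM hNζ in
theorem mem_XD (x : HD (q := q) M) : x ∈ fix (HD (q := q) M) N := by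
  intro n hn
  apply HM.ext
  intro m
  rw [hm_smul_apply]
  show n • x (n⁻¹ • m) = x m
  rw [hNM _ (N.inv_mem hn)]
  exact fix_tors hζ hNζ hn (tors_val hpM x m)

include hpM in
theorem p_XD (x : XD (q := q) N M) : p • x = 0 := by
  apply Subtype.ext
  apply HM.ext
  intro m
  show p • x.1 m = 0
  exact tors_val hpM x.1 m

include hpM hζ in
theorem finite_XD : Finite (XD (q := q) N M) := by
  have : Finite (HD (q := q) M) := finite_hom_LM hζ hpM (q := q)
  infer_instance

theorem XD_smul (g : LG q) (x : XD (q := q) N M) (m : M) :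
    (((g : LG q ⧸ N) • x : XD (q := q) N M)).1 m = g • x.1 (g⁻¹ • m) := rfl

/-- data of roots for a homomorphism to the multiplicative group modulo `p` -/
theorem exists_roots (f : XD (q := q) N M → WK N p) : ∃ Y : XD (q := q) N M → LM q,
    ∀ x, ∃ h : p • Y x ∈ fix (LM q) N, piK N p ⟨p • Y x, h⟩ = f x := by
  have h1 : ∀ x, ∃ y : LM q, ∃ h : p • y ∈ fix (LM q) N, piK N p ⟨p • y, h⟩ = f x := by
    intro x
    obtain ⟨a, ha⟩ := piK_surj N p (f x)
    obtain ⟨y, hy⟩ := div_LM (p := p) (a : LM q)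
    refine ⟨y, hy ▸ a.2, ?_⟩
    rw [← ha]
    congr 1
    exact Subtype.ext hy
  choose Y hY using h1
  exact ⟨Y, hY⟩

include hNζ in
/-- independence of choices -/
theorem kum_indep {y y' : LM q} (h : p • y ∈ fix (LM q) N) (h' : p • y' ∈ fix (LM q) N)
    (he : piK N p ⟨p • y, h⟩ = piK N p ⟨p • y', h'⟩) {n : LG q} (hn : n ∈ N) :
    n • y - y = n • y' - y' := by
  rw [← sub_eq_zero, ← map_sub, piK_ker] at he
  obtain ⟨b, hb⟩ := he
  have hb' : p • y - p • y' = p • (b : LM q) := congrArg Subtype.val hb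
  have h1 : p • (y - y' - (b : LM q)) = 0 := by rw [nsmul_sub, nsmul_sub, hb', sub_self]
  have h2 := fix_tors hζ hNζ hn h1
  rw [smul_sub, smul_sub, b.2 n hn] at h2
  have h3 : n • y - n • y' = y - y' := by
    have := congrArg (fun z => z + (b : LM q)) h2
    simpa using this
  rw [sub_eq_sub_iff_add_eq_add]
  have h4 : n • y = y - y' + n • y' := by rw [← h3]; abel
  rw [h4]; abel

include hpM hNM hNζ in
/-- the Kummer homomorphism -/
theorem exists_kum (hN : IsOpen (N : Set (LG q))) (f : HomG (LG q ⧸ N) (XD (q := q) N M) (WK N p)) :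
    ∃ c : LG q → M, (∀ n ∈ N, ∀ n' ∈ N, c (n * n') = c n + c n') ∧
      (∀ g : LG q, ∀ n ∈ N, c (g * n * g⁻¹) = g • c n) ∧
      (∃ V : Subgroup (LG q), IsOpen (V : Set (LG q)) ∧ V ≤ N ∧ ∀ v ∈ V, c v = 0) ∧
      ∃ Y : XD (q := q) N M → LM q,
        (∀ x, ∃ h : p • Y x ∈ fix (LM q) N, piK N p ⟨p • Y x, h⟩ = f.1 x) ∧
        ∀ n ∈ N, ∀ x : XD (q := q) N M, x.1 (c n) = n • Y x - Y x := by
  classical
  obtain ⟨Y, hY⟩ := exists_roots f.1
  have hfix : ∀ x, p • Y x ∈ fix (LM q) N := fun x => (hY x).1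
  have htor : ∀ n ∈ N, ∀ x, p • (n • Y x - Y x) = 0 := by
    intro n hn x
    rw [nsmul_sub, ← smul_nsmul' n p, hfix x n hn, sub_self]
  have hadd : ∀ n ∈ N, ∀ x x', n • Y (x + x') - Y (x + x') =
      (n • Y x - Y x) + (n • Y x' - Y x') := by
    intro n hn x x'
    obtain ⟨h1, h1'⟩ := hY (x + x')
    obtain ⟨h2, h2'⟩ := hY x
    obtain ⟨h3, h3'⟩ := hY x'
    have h4 : p • (Y x + Y x') ∈ fix (LM q) N := by
      rw [nsmul_add]
      exact (fix (LM q) N).add_mem h2 h3
    have h5 : piK N p ⟨p • (Y x + Y x'), h4⟩ = f.1 x + f.1 x' := by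
      rw [← h2', ← h3', ← map_add]
      congr 1
      exact Subtype.ext (nsmul_add _ _ _)
    rw [kum_indep hζ hNζ h1 h4 (by rw [h1', h5, map_add]) hn, smul_add]
    abel
  have hF : ∀ n ∈ N, ∃ m : M, ∀ x : XD (q := q) N M, x.1 m = n • Y x - Y x := by
    intro n hn
    let tx : (M →+ LM q) → XD (q := q) N M := fun x => ⟨x, mem_XD hζ hpM hNM hNζ x⟩
    obtain ⟨m, hm⟩ := bidual hζ hpM (AddMonoidHom.mk' (fun x => n • Y (tx x) - Y (tx x))
      (fun x x' => hadd n hn (tx x) (tx x')))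
    exact ⟨m, fun x => hm x.1⟩
  choose! c hc using hF
  have hsep : ∀ m m' : M, (∀ x : XD (q := q) N M, x.1 m = x.1 m') → m = m' := by
    intro m m' h
    rw [← sub_eq_zero]
    refine hom_LM_sep hζ hpM fun x => ?_
    rw [map_sub, sub_eq_zero]
    exact h ⟨x, mem_XD hζ hpM hNM hNζ x⟩
  refine ⟨c, fun n hn n' hn' => hsep _ _ fun x => ?_, fun g n hn => hsep _ _ fun x => ?_, ?_,
    Y, hY, hc⟩
  · have h0 : x.1 (c n + c n') = x.1 (c n) + x.1 (c n') := map_add x.1 _ _
    rw [h0, hc _ (N.mul_mem hn hn'), hc n hn, hc n' hn']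
    have h1 := fix_tors hζ hNζ hn (htor n' hn' x)
    rw [smul_sub] at h1
    rw [mul_smul]
    have h2 : n • n' • Y x = n' • Y x - Y x + n • Y x := by rw [← h1]; abel
    rw [h2]; abel
  · have hgn : g * n * g⁻¹ ∈ N := hNn.conj_mem n hn g
    rw [hc _ hgn]
    have h1 : x.1 (g • c n) = g • (((g⁻¹ : LG q) : LG q ⧸ N) • x : XD (q := q) N M).1 (c n) := by
      rw [XD_smul, smul_inv_smul, inv_inv]
    rw [h1, hc n hn]
    set x' : XD (q := q) N M := ((g⁻¹ : LG q) : LG q ⧸ N) • x with hx'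
    obtain ⟨h2, h2'⟩ := hY x
    obtain ⟨h3, h3'⟩ := hY x'
    have h4 : p • (g • Y x') ∈ fix (LM q) N := by
      rw [← smul_nsmul' g p]
      exact smul_mem_fix g h3
    have h5 : piK N p ⟨p • (g • Y x'), h4⟩ = f.1 x := by
      have h6 : (⟨p • (g • Y x'), h4⟩ : fix (LM q) N) =
          ((g : LG q) : LG q ⧸ N) • (⟨p • Y x', h3⟩ : fix (LM q) N) :=
        Subtype.ext (smul_nsmul' g p _).symm
      rw [h6, piK_smul, h3', ← f.2, hx', smul_smul, ← QuotientGroup.mk_mul, mul_inv_cancel]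
      congr 1
      exact one_smul _ x
    rw [kum_indep hζ hNζ h2 h4 (by rw [h2', h5]) hgn, smul_sub, smul_smul, smul_smul,
      inv_mul_cancel_right]
  · have := finite_XD (N := N) hζ hpM
    choose S hS1 hS2 using fun x => disc_LM (q := q) (Y x)
    refine ⟨N ⊓ ⨅ x, S x, ?_, inf_le_left, fun v hv => hsep _ _ fun x => ?_⟩
    · refine open_inf hN ?_
      rw [Subgroup.coe_iInf]
      exact isOpen_iInter_of_finite fun x => hS1 x
    · rw [hc v hv.1]
      have h1 : v ∈ ⨅ x, S x := hv.2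
      rw [Subgroup.mem_iInf] at h1
      rw [hS2 x v (h1 x), sub_self]
      exact (map_zero x.1).symm

/-- first cohomology, locally constant -/
abbrev H1l (G : Type*) [Group G] [TopologicalSpace G] (M : Type*) [AddCommGroup M]
    [DistribMulAction G M] : Type _ := Z1l G M ⧸ (B1 G M).addSubgroupOf (Z1l G M)

include hpM hNM hNζ in
/-- the Kummer classes -/
theorem exists_kum_inj (hN : IsOpen (N : Set (LG q))) (hi : N.index.Coprime p) :
    ∃ κ : HomG (LG q ⧸ N) (XD (q := q) N M) (WK N p) → H1l (LG q) M, Function.Injective κ := by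
  classical
  have := Subgroup.quotient_finite_of_isOpen N hN
  choose c h1 h2 h3 Y h4 h5 using exists_kum (p := p) hζ hpM hNM hNζ hN
  have h6 : ∀ f, ∃ F ∈ Z1l (LG q) M, ∀ n ∈ N, F n = c f n := by
    intro f
    obtain ⟨V, hV1, hV2, hV3⟩ := h3 f
    exact exists_cocycle hi hpM hNM (c f) (h1 f) (h2 f) V hV1 hV2 hV3
  choose F hF hFc using h6
  refine ⟨fun f => QuotientAddGroup.mk ⟨F f, hF f⟩, fun f f' hff => ?_⟩
  have h7 := QuotientAddGroup.eq.mp hff
  rw [AddSubgroup.mem_addSubgroupOf] at h7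
  obtain ⟨a, ha⟩ := h7
  have h8 : ∀ n ∈ N, c f n = c f' n := by
    intro n hn
    have h9 : -F f n + F f' n = n • a - a := ha n
    rw [hNM n hn, sub_self, hFc f n hn, hFc f' n hn] at h9
    rw [neg_add_eq_zero] at h9
    exact h9
  apply Subtype.ext
  refine AddMonoidHom.ext fun x => ?_
  obtain ⟨e1, e1'⟩ := h4 f x
  obtain ⟨e2, e2'⟩ := h4 f' x
  have h10 : Y f x - Y f' x ∈ fix (LM q) N := by
    intro n hn
    have e3 := h5 f n hn x
    have e4 := h5 f' n hn x
    rw [h8 n hn, e4] at e3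
    rw [smul_sub]
    rw [sub_eq_sub_iff_add_eq_add] at e3 ⊢
    rw [add_comm (n • Y f x), add_comm (Y f' x), ← e3, add_comm]
  rw [← e1', ← e2', ← sub_eq_zero, ← map_sub, piK_ker]
  refine ⟨⟨_, h10⟩, Subtype.ext ?_⟩
  show p • Y f x - p • Y f' x = p • (Y f x - Y f' x)
  rw [nsmul_sub]

end Kummer

end

end Fermat.Agent.TWH1
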