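import Fermat.Agent.TWH1.Final
import Fermat.Agent.TWLocal.Dev2

set_option autoImplicit false
set_option maxHeartbeats 400000
set_option linter.unusedSectionVars false
set_option linter.style.haveILetI false

/-! The truncated long exact sequence for locally constant cochains: a count (the local version
of `EulerC/Les`). -/

namespace Fermat.Agent.TWH1

open Fermat.Agent.CFT Fermat.Agent.TWLocal

section corr

variable {X Y : Type*} [AddCommGroup X] [AddCommGroup Y]

/-- a correspondence between two subquotients gives an equality of indices -/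
theorem relIndex_corr (R : AddSubgroup (X × Y)) (KX ZX : AddSubgroup X) (KY ZY : AddSubgroup Y)
    (h1 : ∀ r ∈ R, r.1 ∈ ZX) (h1' : ∀ x ∈ ZX, ∃ y, (x, y) ∈ R)
    (h2 : ∀ r ∈ R, r.2 ∈ ZY) (h2' : ∀ y ∈ ZY, ∃ x, (x, y) ∈ R)
    (hK : ∀ r ∈ R, r.1 ∈ KX ↔ r.2 ∈ KY) : KX.relIndex ZX = KY.relIndex ZY := by
  have e1 : R.map (AddMonoidHom.fst X Y) = ZX := by
    ext x
    constructor
    · rintro ⟨r, hr, rfl⟩; exact h1 r hr
    · intro hx
      obtain ⟨y, hy⟩ := h1' x hx
      exact ⟨(x, y), hy, rfl⟩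
  have e2 : R.map (AddMonoidHom.snd X Y) = ZY := by
    ext y
    constructor
    · rintro ⟨r, hr, rfl⟩; exact h2 r hr
    · intro hy
      obtain ⟨x, hx⟩ := h2' y hy
      exact ⟨(x, y), hx, rfl⟩
  have e3 : KX.comap (AddMonoidHom.fst X Y) ⊓ R = KY.comap (AddMonoidHom.snd X Y) ⊓ R := by
    ext r
    simp only [AddSubgroup.mem_inf, AddSubgroup.mem_comap, AddMonoidHom.coe_fst,
      AddMonoidHom.coe_snd]
    exact ⟨fun h => ⟨(hK r h.2).mp h.1, h.2⟩, fun h => ⟨(hK r h.2).mpr h.1, h.2⟩⟩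
  rw [← e1, ← e2, ← AddSubgroup.relIndex_comap, ← AddSubgroup.relIndex_comap,
    ← AddSubgroup.inf_relIndex_right, e3, AddSubgroup.inf_relIndex_right]

end corr

section les

variable {U : Type*} [Group U] [TopologicalSpace U] [IsTopologicalGroup U] [CompactSpace U]

variable {A M C : Type*} [AddCommGroup A] [AddCommGroup M] [AddCommGroup C]
  [DistribMulAction U A] [DistribMulAction U M] [DistribMulAction U C]

theorem B1_le_Z1l' (hM : Sm U M) : B1 U M ≤ Z1l U M := by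
  rintro b ⟨m, hm⟩
  refine ⟨?_, ?_⟩
  · intro g h
    rw [hm, hm, hm, mul_smul, smul_sub]; abel
  · obtain ⟨E, hE, h1⟩ := hM
    refine ⟨E, hE, fun g s hs => ?_⟩
    rw [hm, hm, mul_smul, h1 s hs]

theorem B2l_le_Z2l' (hM : Sm U M) : B2l U M ≤ Z2l U M := B2l_le_Z2l hM.disc

variable (U) in
/-- the order of `H⁰` -/
noncomputable def h0 (N : Type*) [AddCommGroup N] [DistribMulAction U N] : ℕ :=
  Nat.card (fix N (⊤ : Subgroup U))

variable (U) in
/-- the order of `H¹` (`0` if infinite) -/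
noncomputable def h1 (N : Type*) [AddCommGroup N] [DistribMulAction U N] : ℕ :=
  (B1 U N).relIndex (Z1l U N)

variable (U) in
/-- the order of `H²` (`0` if infinite) -/
noncomputable def h2 (N : Type*) [AddCommGroup N] [DistribMulAction U N] : ℕ :=
  (B2l U N).relIndex (Z2l U N)

/-- the data of a short exact sequence -/
structure Ses (U : Type*) [Group U] {A M C : Type*} [AddCommGroup A] [AddCommGroup M]
    [AddCommGroup C] [DistribMulAction U A] [DistribMulAction U M] [DistribMulAction U C]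
    (i : A →+ M) (j : M →+ C) : Prop where
  inj : Function.Injective i
  surj : Function.Surjective j
  exact : ∀ m, j m = 0 ↔ ∃ a, i a = m
  ieq : ∀ (g : U) a, i (g • a) = g • i a
  jeq : ∀ (g : U) m, j (g • m) = g • j m

variable {i : A →+ M} {j : M →+ C}

theorem Ses.lvA (h : Ses U i j) (hM : Sm U M) : Sm U A := by
  obtain ⟨E, hE, h1⟩ := hM
  refine ⟨E, hE, fun s hs a => h.inj ?_⟩
  rw [h.ieq, h1 s hs]

theorem Ses.lvC (h : Ses U i j) (hM : Sm U M) : Sm U C := by
  obtain ⟨E, hE, h1⟩ := hM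
  refine ⟨E, hE, fun s hs c => ?_⟩
  obtain ⟨m, rfl⟩ := h.surj c
  rw [← h.jeq, h1 s hs]

/-- lifting functions with values in the kernel -/
theorem Ses.lift (h : Ses U i j) {Y : Type*} {f : Y → M} (hf : ∀ y, j (f y) = 0) :
    ∃ a : Y → A, ∀ y, i (a y) = f y :=
  ⟨fun y => ((h.exact _).mp (hf y)).choose, fun y => ((h.exact _).mp (hf y)).choose_spec⟩

theorem Ses.lv1 (h : Ses U i j) {a : U → A} (ha : LC1 (fun g => i (a g))) : LC1 a := by
  obtain ⟨E, hE, h1⟩ := ha
  exact ⟨E, hE, fun g s hs => h.inj (h1 g s hs)⟩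

theorem Ses.lv2 (h : Ses U i j) {a : U → U → A} (ha : LC2 (fun g g' => i (a g g'))) :
    LC2 a := by
  obtain ⟨E, hE, h1⟩ := ha
  exact ⟨E, hE, fun g g' s hs s' hs' => h.inj (h1 g g' s hs s' hs')⟩

/-- `r₁` and the image of `M^U` -/
def imM (U : Type*) [Group U] {M C : Type*} [AddCommGroup M] [AddCommGroup C]
    [DistribMulAction U M] (j : M →+ C) : AddSubgroup C := (fix M (⊤ : Subgroup U)).map j

/-- cocycles of `A` which become trivial in `M` -/
def K1A (U : Type*) [Group U] [TopologicalSpace U] {A M : Type*} [AddCommGroup A]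
    [AddCommGroup M] [DistribMulAction U A] [DistribMulAction U M] (i : A →+ M) :
    AddSubgroup (U → A) where
  carrier := {a | a ∈ Z1l U A ∧ (fun g => i (a g)) ∈ B1 U M}
  zero_mem' := ⟨zero_mem _, by
    have : (fun g : U => i ((0 : U → A) g)) = 0 := by funext g; simp
    rw [this]; exact zero_mem _⟩
  add_mem' := by
    rintro a b ⟨ha, ha'⟩ ⟨hb, hb'⟩
    refine ⟨add_mem ha hb, ?_⟩
    have : (fun g : U => i ((a + b) g)) = (fun g => i (a g)) + fun g => i (b g) := by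
      funext g; simp
    rw [this]; exact add_mem ha' hb'
  neg_mem' := by
    rintro a ⟨ha, ha'⟩
    refine ⟨neg_mem ha, ?_⟩
    have : (fun g : U => i ((-a) g)) = -(fun g => i (a g)) := by
      funext g; simp
    rw [this]; exact neg_mem ha'

/-- two-cocycles of `A` which become trivial in `M` -/
def K2A (U : Type*) [Group U] [TopologicalSpace U] {A M : Type*} [AddCommGroup A]
    [AddCommGroup M] [DistribMulAction U A] [DistribMulAction U M] (i : A →+ M) :
    AddSubgroup (U → U → A) where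
  carrier := {a | a ∈ Z2l U A ∧ (fun g h => i (a g h)) ∈ B2l U M}
  zero_mem' := ⟨zero_mem _, by
    have : (fun g h : U => i ((0 : U → U → A) g h)) = 0 := by funext g h; simp
    rw [this]; exact zero_mem _⟩
  add_mem' := by
    rintro a b ⟨ha, ha'⟩ ⟨hb, hb'⟩
    refine ⟨add_mem ha hb, ?_⟩
    have : (fun g h : U => i ((a + b) g h)) = (fun g h => i (a g h)) + fun g h => i (b g h) := by
      funext g h; simp
    rw [this]; exact add_mem ha' hb'
  neg_mem' := by
    rintro a ⟨ha, ha'⟩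
    refine ⟨neg_mem ha, ?_⟩
    have : (fun g h : U => i ((-a) g h)) = -(fun g h => i (a g h)) := by
      funext g h; simp
    rw [this]; exact neg_mem ha'

/-- cocycles of `C` which lift -/
def K1C (U : Type*) [Group U] [TopologicalSpace U] {M C : Type*} [AddCommGroup M]
    [AddCommGroup C] [DistribMulAction U M] (j : M →+ C) :
    AddSubgroup (U → C) where
  carrier := {c | ∃ b ∈ Z1l U M, ∀ g, c g = j (b g)}
  zero_mem' := ⟨0, zero_mem _, fun g => by simp⟩
  add_mem' := by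
    rintro a b ⟨x, hx, hx'⟩ ⟨y, hy, hy'⟩
    exact ⟨x + y, add_mem hx hy, fun g => by simp [hx', hy']⟩
  neg_mem' := by
    rintro a ⟨x, hx, hx'⟩
    exact ⟨-x, neg_mem hx, fun g => by simp [hx']⟩

/-- two-cocycles of `C` which lift -/
def K2C (U : Type*) [Group U] [TopologicalSpace U] {M C : Type*} [AddCommGroup M]
    [AddCommGroup C] [DistribMulAction U M] (j : M →+ C) :
    AddSubgroup (U → U → C) where
  carrier := {c | ∃ b ∈ Z2l U M, ∀ g h, c g h = j (b g h)}
  zero_mem' := ⟨0, zero_mem _, fun g h => by simp⟩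
  add_mem' := by
    rintro a b ⟨x, hx, hx'⟩ ⟨y, hy, hy'⟩
    exact ⟨x + y, add_mem hx hy, fun g h => by simp [hx', hy']⟩
  neg_mem' := by
    rintro a ⟨x, hx, hx'⟩
    exact ⟨-x, neg_mem hx, fun g h => by simp [hx']⟩

variable (h : Ses U i j)

include h

theorem Ses.r0 : (⊥ : AddSubgroup A).relIndex (fix A (⊤ : Subgroup U)) =
    (⊥ : AddSubgroup M).relIndex (j.ker ⊓ fix M (⊤ : Subgroup U)) := by
  refine relIndex_corr
    { carrier := {r : A × M | r.1 ∈ fix A (⊤ : Subgroup U) ∧ r.2 = i r.1}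
      zero_mem' := ⟨zero_mem _, by simp⟩
      add_mem' := fun ha hb => ⟨add_mem ha.1 hb.1, by simp [ha.2, hb.2]⟩
      neg_mem' := fun ha => ⟨neg_mem ha.1, by simp [ha.2]⟩ } _ _ _ _ ?_ ?_ ?_ ?_ ?_
  · rintro r ⟨hr, -⟩; exact hr
  · intro x hx; exact ⟨i x, hx, rfl⟩
  · rintro ⟨a, m⟩ ⟨hr, hr'⟩
    change m = i a at hr'
    subst hr'
    refine ⟨(h.exact _).mpr ⟨a, rfl⟩, fun g hg => ?_⟩
    change g • i a = i a
    rw [← h.ieq, hr g hg]
  · rintro m ⟨hm, hm'⟩
    obtain ⟨a, rfl⟩ := (h.exact m).mp hm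
    refine ⟨a, fun g hg => h.inj ?_, rfl⟩
    rw [h.ieq]; exact hm' g hg
  · rintro ⟨a, m⟩ ⟨-, hr'⟩
    change m = i a at hr'
    subst hr'
    change a ∈ (⊥ : AddSubgroup A) ↔ i a ∈ (⊥ : AddSubgroup M)
    rw [AddSubgroup.mem_bot, AddSubgroup.mem_bot]
    exact ⟨fun h7 => by rw [h7, map_zero], fun h7 => h.inj (by rw [h7, map_zero])⟩

theorem Ses.r1 : j.ker.relIndex (fix M (⊤ : Subgroup U)) =
    (⊥ : AddSubgroup C).relIndex (imM U j) := by
  refine relIndex_corr
    { carrier := {r : M × C | r.1 ∈ fix M (⊤ : Subgroup U) ∧ r.2 = j r.1}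
      zero_mem' := ⟨zero_mem _, by simp⟩
      add_mem' := fun ha hb => ⟨add_mem ha.1 hb.1, by simp [ha.2, hb.2]⟩
      neg_mem' := fun ha => ⟨neg_mem ha.1, by simp [ha.2]⟩ } _ _ _ _ ?_ ?_ ?_ ?_ ?_
  · rintro r ⟨hr, -⟩; exact hr
  · intro x hx; exact ⟨j x, hx, rfl⟩
  · rintro ⟨a, m⟩ ⟨hr, hr'⟩
    exact ⟨a, hr, hr'.symm⟩
  · rintro m ⟨x, hx, rfl⟩
    exact ⟨x, hx, rfl⟩
  · rintro ⟨a, m⟩ ⟨-, hr'⟩
    change m = j a at hr'
    subst hr'
    change a ∈ j.ker ↔ j a ∈ (⊥ : AddSubgroup C)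
    rw [AddSubgroup.mem_bot]; exact Iff.rfl

theorem Ses.imM_le : imM U j ≤ fix C (⊤ : Subgroup U) := by
  rintro _ ⟨m, hm, rfl⟩ g hg
  rw [← h.jeq, hm g hg]

theorem Ses.r2 (hM : Sm U M) : (imM U j).relIndex (fix C (⊤ : Subgroup U)) =
    (B1 U A).relIndex (K1A U i) := by
  refine relIndex_corr
    { carrier := {r : C × (U → A) | ∃ m, j m = r.1 ∧ ∀ g, i (r.2 g) = g • m - m}
      zero_mem' := ⟨0, by simp, by simp⟩
      add_mem' := by
        rintro _ _ ⟨m, hm, hm'⟩ ⟨n, hn, hn'⟩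
        refine ⟨m + n, by simp [hm, hn], fun g => ?_⟩
        simp only [Prod.snd_add, Pi.add_apply, map_add, hm', hn', smul_add]; abel
      neg_mem' := by
        rintro _ ⟨m, hm, hm'⟩
        refine ⟨-m, by simp [hm], fun g => ?_⟩
        simp only [Prod.snd_neg, Pi.neg_apply, map_neg, hm', smul_neg]; abel } _ _ _ _ ?_ ?_ ?_ ?_ ?_
  · rintro ⟨c, a⟩ ⟨m, hm, hm'⟩ g -
    change j m = c at hm
    subst hm
    change g • j m = j m
    rw [← sub_eq_zero, ← h.jeq, ← map_sub]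
    exact (h.exact _).mpr ⟨_, hm' g⟩
  · intro c hc
    obtain ⟨m, rfl⟩ := h.surj c
    obtain ⟨a, ha⟩ := h.lift (f := fun g : U => g • m - m) (fun g => by
      rw [map_sub, h.jeq, hc g trivial, sub_self])
    exact ⟨a, m, rfl, ha⟩
  · rintro ⟨c, a⟩ ⟨m, hm, hm'⟩
    have hb : (fun g => i (a g)) ∈ B1 U M := ⟨m, hm'⟩
    refine ⟨⟨?_, ?_⟩, hb⟩
    · intro g g'
      apply h.inj
      have h3 := (B1_le_Z1l' hM hb).1 g g'
      change i (a (g * g')) = i (a g + g • a g')
      rw [map_add, h.ieq]; exact h3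
    · exact h.lv1 (B1_le_Z1l' hM hb).2
  · rintro a ⟨-, m, hm⟩
    exact ⟨j m, m, rfl, hm⟩
  · rintro ⟨c, a⟩ ⟨m, hm, hm'⟩
    change j m = c at hm
    subst hm
    constructor
    · rintro ⟨m', hm1, hm2⟩
      have h3 : j (m - m') = 0 := by rw [map_sub, hm2, sub_self]
      obtain ⟨x, hx⟩ := (h.exact _).mp h3
      refine ⟨x, fun g => h.inj ?_⟩
      rw [hm', map_sub, h.ieq, hx, smul_sub, hm1 g trivial]; abel
    · rintro ⟨x, hx⟩
      refine ⟨m - i x, fun g _ => ?_, by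
        rw [map_sub, (h.exact _).mpr ⟨x, rfl⟩, sub_zero]⟩
      have h3 := hm' g
      change i (a g) = _ at h3
      rw [show a g = g • x - x from hx g, map_sub, h.ieq] at h3
      rw [smul_sub, sub_eq_sub_iff_sub_eq_sub, ← h3]

theorem Ses.B1A_le (hM : Sm U M) : B1 U A ≤ K1A U i := by
  intro a ha
  refine ⟨B1_le_Z1l' (h.lvA hM) ha, ?_⟩
  obtain ⟨x, hx⟩ := ha
  exact ⟨i x, fun g => by beta_reduce; rw [hx, map_sub, h.ieq]⟩

theorem Ses.K1A_le : K1A U i ≤ Z1l U A := fun _ ha => ha.1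

theorem Ses.r3 (hM : Sm U M) : (K1A U i).relIndex (Z1l U A) =
    (B1 U M).relIndex (K1A U j) := by
  refine relIndex_corr
    { carrier := {r : (U → A) × (U → M) | r.1 ∈ Z1l U A ∧ (fun g => r.2 g - i (r.1 g)) ∈ B1 U M}
      zero_mem' := ⟨zero_mem _, by
        have : (fun g : U => (0 : (U → A) × (U → M)).2 g - i ((0 : (U → A) × (U → M)).1 g)) = 0 := by
          funext g; simp
        rw [this]; exact zero_mem _⟩
      add_mem' := by
        rintro r r' ⟨ha, ha'⟩ ⟨hb, hb'⟩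
        refine ⟨add_mem ha hb, ?_⟩
        have : (fun g : U => (r + r').2 g - i ((r + r').1 g)) =
            (fun g => r.2 g - i (r.1 g)) + fun g => r'.2 g - i (r'.1 g) := by
          funext g
          simp only [Prod.snd_add, Prod.fst_add, Pi.add_apply, map_add]; abel
        rw [this]; exact add_mem ha' hb'
      neg_mem' := by
        rintro r ⟨ha, ha'⟩
        refine ⟨neg_mem ha, ?_⟩
        have : (fun g : U => (-r).2 g - i ((-r).1 g)) = -(fun g => r.2 g - i (r.1 g)) := by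
          funext g
          simp only [Prod.snd_neg, Prod.fst_neg, Pi.neg_apply, map_neg]; abel
        rw [this]; exact neg_mem ha' } _ _ _ _ ?_ ?_ ?_ ?_ ?_
  · rintro r ⟨hr, -⟩; exact hr
  · intro a ha
    refine ⟨fun g => i (a g), ha, ?_⟩
    have : (fun g : U => i (a g) - i (a g)) = 0 := by funext g; simp
    change (fun g : U => i (a g) - i (a g)) ∈ B1 U M
    rw [this]; exact zero_mem _
  · rintro ⟨a, b⟩ ⟨ha, hb⟩
    change a ∈ Z1l U A at ha
    change (fun g => b g - i (a g)) ∈ B1 U M at hb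
    have hi : (fun g => i (a g)) ∈ Z1l U M :=
      ⟨fun g g' => by beta_reduce; rw [ha.1 g g', map_add, h.ieq], ha.2.comp i⟩
    have hb2 : b ∈ Z1l U M := by
      have := add_mem (B1_le_Z1l' hM hb) hi
      have e : (fun g => b g - i (a g)) + (fun g => i (a g)) = b := by
        funext g; simp
      rwa [e] at this
    refine ⟨hb2, ?_⟩
    obtain ⟨m, hm⟩ := hb
    refine ⟨j m, fun g => ?_⟩
    have h3 := congrArg j (hm g)
    simp only [map_sub, h.jeq, (h.exact _).mpr ⟨a g, rfl⟩, sub_zero] at h3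
    exact h3
  · rintro b ⟨hb, c, hc⟩
    obtain ⟨m, rfl⟩ := h.surj c
    have hc' : ∀ g, j (b g) = g • j m - j m := hc
    obtain ⟨a, ha⟩ := h.lift (f := fun g : U => b g - (g • m - m)) (fun g => by
      rw [map_sub, map_sub, h.jeq, hc' g, sub_self])
    refine ⟨a, ?_, ?_⟩
    · have h3 : (fun g => i (a g)) ∈ Z1l U M := by
        have e : (fun g => i (a g)) = b - fun g => g • m - m := by
          funext g; exact ha g
        rw [e]
        exact sub_mem hb (B1_le_Z1l' hM ⟨m, fun g => rfl⟩)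
      refine ⟨?_, h.lv1 h3.2⟩
      intro g g'
      apply h.inj
      rw [map_add, h.ieq]; exact h3.1 g g'
    · refine ⟨m, fun g => ?_⟩
      change b g - i (a g) = _
      rw [ha g]; abel
  · rintro ⟨a, b⟩ ⟨ha, hb⟩
    change a ∈ Z1l U A at ha
    change (fun g => b g - i (a g)) ∈ B1 U M at hb
    have e : b = (fun g => b g - i (a g)) + fun g => i (a g) := by
      funext g; simp
    change (a ∈ Z1l U A ∧ (fun g => i (a g)) ∈ B1 U M) ↔ b ∈ B1 U M
    constructor
    · rintro ⟨-, h7⟩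
      rw [e]; exact add_mem hb h7
    · intro h7
      refine ⟨ha, ?_⟩
      have e' : (fun g => i (a g)) = b - fun g => b g - i (a g) := by
        funext g; simp
      rw [e']; exact sub_mem h7 hb

theorem Ses.B1M_le (hM : Sm U M) : B1 U M ≤ K1A U j := by
  intro b hb
  refine ⟨B1_le_Z1l' hM hb, ?_⟩
  obtain ⟨x, hx⟩ := hb
  exact ⟨j x, fun g => by beta_reduce; rw [hx, map_sub, h.jeq]⟩

theorem Ses.K1M_le : K1A U j ≤ Z1l U M := fun _ ha => ha.1

theorem Ses.r4 : (K1A U j).relIndex (Z1l U M) = (B1 U C).relIndex (K1C U j) := by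
  refine relIndex_corr
    { carrier := {r : (U → M) × (U → C) | r.1 ∈ Z1l U M ∧ ∀ g, r.2 g = j (r.1 g)}
      zero_mem' := ⟨zero_mem _, by simp⟩
      add_mem' := fun ha hb => ⟨add_mem ha.1 hb.1, fun g => by simp [ha.2, hb.2]⟩
      neg_mem' := fun ha => ⟨neg_mem ha.1, fun g => by simp [ha.2]⟩ } _ _ _ _ ?_ ?_ ?_ ?_ ?_
  · rintro r ⟨hr, -⟩; exact hr
  · intro x hx; exact ⟨fun g => j (x g), hx, fun g => rfl⟩
  · rintro ⟨b, c⟩ ⟨hb, hc⟩
    exact ⟨b, hb, hc⟩
  · rintro c ⟨b, hb, hc⟩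
    exact ⟨b, hb, hc⟩
  · rintro ⟨b, c⟩ ⟨hb, hc⟩
    have e : c = fun g => j (b g) := funext hc
    change (b ∈ Z1l U M ∧ (fun g => j (b g)) ∈ B1 U C) ↔ c ∈ B1 U C
    rw [e]
    exact ⟨fun h7 => h7.2, fun h7 => ⟨hb, h7⟩⟩

theorem Ses.B1C_le (hM : Sm U M) : B1 U C ≤ K1C U j := by
  rintro c ⟨x, hx⟩
  obtain ⟨m, rfl⟩ := h.surj x
  exact ⟨fun g => g • m - m, B1_le_Z1l' hM ⟨m, fun g => rfl⟩, fun g => by
    rw [hx, map_sub, h.jeq]⟩

theorem Ses.K1C_le : K1C U j ≤ Z1l U C := by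
  rintro c ⟨b, hb, hc⟩
  have e : c = fun g => j (b g) := funext hc
  rw [e]
  exact ⟨fun g g' => by beta_reduce; rw [hb.1 g g', map_add, h.jeq], hb.2.comp j⟩

theorem Ses.r5 (hM : Sm U M) : (K1C U j).relIndex (Z1l U C) =
    (B2l U A).relIndex (K2A U i) := by
  refine relIndex_corr
    { carrier := {r : (U → C) × (U → U → A) | ∃ b : U → M, LC1 b ∧ (∀ g, j (b g) = r.1 g) ∧
        ∀ g g', i (r.2 g g') = dd b g g'}
      zero_mem' := ⟨0, LC1.const 0, by simp, by simp [dd]⟩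
      add_mem' := by
        rintro r r' ⟨b, hb, hb1, hb2⟩ ⟨b', hb', hb1', hb2'⟩
        refine ⟨b + b', hb.map₂ hb' (· + ·), fun g => by simp [hb1, hb1'], fun g g' => ?_⟩
        simp only [Prod.snd_add, Pi.add_apply, map_add, hb2, hb2', dd, smul_add]; abel
      neg_mem' := by
        rintro r ⟨b, hb, hb1, hb2⟩
        refine ⟨-b, hb.comp (- ·), fun g => by simp [hb1], fun g g' => ?_⟩
        simp only [Prod.snd_neg, Pi.neg_apply, map_neg, hb2, dd, smul_neg]; abel }
    _ _ _ _ ?_ ?_ ?_ ?_ ?_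
  · rintro ⟨c, x⟩ ⟨b, hb, hb1, hb2⟩
    change (∀ g, j (b g) = c g) at hb1
    change (∀ g g', i (x g g') = dd b g g') at hb2
    change c ∈ Z1l U C
    have e : c = fun g => j (b g) := funext fun g => (hb1 g).symm
    refine ⟨fun g g' => ?_, by rw [e]; exact hb.comp j⟩
    have h3 := congrArg j (hb2 g g')
    rw [(h.exact _).mpr ⟨_, rfl⟩] at h3
    have h4 : j (dd b g g') = c g + g • c g' - c (g * g') := by
      change j (b g + g • b g' - b (g * g')) = _
      rw [map_sub, map_add, h.jeq, hb1, hb1, hb1]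
    rw [h4] at h3
    exact (sub_eq_zero.mp h3.symm).symm
  · intro c hc
    obtain ⟨s, hs⟩ := h.surj.hasRightInverse
    have hb : LC1 (fun g => s (c g)) := hc.2.comp s
    obtain ⟨x, hx⟩ := h.lift (f := fun r : U × U => dd (fun g => s (c g)) r.1 r.2) (fun r => by
      change j (s (c r.1) + r.1 • s (c r.2) - s (c (r.1 * r.2))) = 0
      rw [map_sub, map_add, h.jeq, hs, hs, hs, hc.1, sub_self])
    exact ⟨fun g g' => x (g, g'), fun g => s (c g), hb, fun g => hs _, fun g g' => hx (g, g')⟩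
  · rintro ⟨c, x⟩ ⟨b, hb, hb1, hb2⟩
    change (∀ g g', i (x g g') = dd b g g') at hb2
    change x ∈ K2A U i
    have e : (fun g g' => i (x g g')) = dd b := by funext g g'; exact hb2 g g'
    have hB : dd b ∈ B2l U M := dd_mem_B2l hb
    have hZ := B2l_le_Z2l' hM hB
    refine ⟨⟨?_, ?_⟩, by rw [e]; exact hB⟩
    · intro g g' g''
      apply h.inj
      rw [map_add, map_add, h.ieq, hb2, hb2, hb2, hb2]
      exact hZ.1 g g' g''
    · apply h.lv2
      rw [e]; exact hZ.2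
  · rintro x ⟨hx, b, hb, hb'⟩
    refine ⟨fun g => j (b g), b, hb, fun g => rfl, hb'⟩
  · rintro ⟨c, x⟩ ⟨b, hb, hb1, hb2⟩
    change (∀ g, j (b g) = c g) at hb1
    change (∀ g g', i (x g g') = dd b g g') at hb2
    change c ∈ K1C U j ↔ x ∈ B2l U A
    constructor
    · rintro ⟨b', hb', hc⟩
      obtain ⟨a, ha⟩ := h.lift (f := fun g : U => b g - b' g) (fun g => by
        rw [map_sub, hb1, hc, sub_self])
      have hla : LC1 a := h.lv1 (by
        have e : (fun g => i (a g)) = fun g => b g - b' g := funext ha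
        rw [e]; exact hb.map₂ hb'.2 (· - ·))
      refine ⟨a, hla, fun g g' => h.inj ?_⟩
      rw [map_sub, map_add, h.ieq, ha, ha, ha, hb2, hb'.1 g g', smul_sub]
      change b g + g • b g' - b (g * g') = _
      abel
    · rintro ⟨a, ha, hx⟩
      refine ⟨fun g => b g - i (a g), ⟨fun g g' => ?_, hb.map₂ (ha.comp i) (· - ·)⟩, fun g => by
        rw [map_sub, (h.exact _).mpr ⟨_, rfl⟩, sub_zero, hb1]⟩
      have h3 := hb2 g g'
      rw [show x g g' = a g + g • a g' - a (g * g') from hx g g', map_sub, map_add, h.ieq] at h3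
      change _ = b g + g • b g' - b (g * g') at h3
      beta_reduce
      rw [smul_sub]
      have h4 : b (g * g') = b g + g • b g' - (i (a g) + g • i (a g') - i (a (g * g'))) := by
        rw [h3]; abel
      rw [h4]; abel

theorem Ses.B2A_le (hM : Sm U M) : B2l U A ≤ K2A U i := by
  intro x hx
  refine ⟨B2l_le_Z2l' (h.lvA hM) hx, ?_⟩
  obtain ⟨b, hb, hb'⟩ := hx
  exact ⟨fun g => i (b g), hb.comp i, fun g g' => by beta_reduce; rw [hb', map_sub, map_add, h.ieq]⟩

theorem Ses.K2A_le : K2A U i ≤ Z2l U A := fun _ ha => ha.1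

theorem Ses.r6 (hM : Sm U M) : (K2A U i).relIndex (Z2l U A) =
    (B2l U M).relIndex (K2A U j) := by
  refine relIndex_corr
    { carrier := {r : (U → U → A) × (U → U → M) | r.1 ∈ Z2l U A ∧
        (fun g g' => r.2 g g' - i (r.1 g g')) ∈ B2l U M}
      zero_mem' := ⟨zero_mem _, by
        have : (fun g g' : U => (0 : (U → U → A) × (U → U → M)).2 g g' -
            i ((0 : (U → U → A) × (U → U → M)).1 g g')) = 0 := by
          funext g g'; simp
        rw [this]; exact zero_mem _⟩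
      add_mem' := by
        rintro r r' ⟨ha, ha'⟩ ⟨hb, hb'⟩
        refine ⟨add_mem ha hb, ?_⟩
        have : (fun g g' : U => (r + r').2 g g' - i ((r + r').1 g g')) =
            (fun g g' => r.2 g g' - i (r.1 g g')) + fun g g' => r'.2 g g' - i (r'.1 g g') := by
          funext g g'
          simp only [Prod.snd_add, Prod.fst_add, Pi.add_apply, map_add]; abel
        rw [this]; exact add_mem ha' hb'
      neg_mem' := by
        rintro r ⟨ha, ha'⟩
        refine ⟨neg_mem ha, ?_⟩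
        have : (fun g g' : U => (-r).2 g g' - i ((-r).1 g g')) =
            -(fun g g' => r.2 g g' - i (r.1 g g')) := by
          funext g g'
          simp only [Prod.snd_neg, Prod.fst_neg, Pi.neg_apply, map_neg]; abel
        rw [this]; exact neg_mem ha' } _ _ _ _ ?_ ?_ ?_ ?_ ?_
  · rintro r ⟨hr, -⟩; exact hr
  · intro a ha
    refine ⟨fun g g' => i (a g g'), ha, ?_⟩
    have : (fun g g' : U => i (a g g') - i (a g g')) = 0 := by funext g g'; simp
    change (fun g g' : U => i (a g g') - i (a g g')) ∈ B2l U M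
    rw [this]; exact zero_mem _
  · rintro ⟨a, b⟩ ⟨ha, hb⟩
    change a ∈ Z2l U A at ha
    change (fun g g' => b g g' - i (a g g')) ∈ B2l U M at hb
    have hi : (fun g g' => i (a g g')) ∈ Z2l U M :=
      ⟨fun g g' g'' => by beta_reduce; rw [← map_add, ha.1 g g' g'', map_add, h.ieq], ha.2.comp i⟩
    have hb2 : b ∈ Z2l U M := by
      have := add_mem (B2l_le_Z2l' hM hb) hi
      have e : (fun g g' => b g g' - i (a g g')) + (fun g g' => i (a g g')) = b := by
        funext g g'; simp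
      rwa [e] at this
    refine ⟨hb2, ?_⟩
    obtain ⟨m, hml, hm⟩ := hb
    refine ⟨fun g => j (m g), hml.comp j, fun g g' => ?_⟩
    have h3 := congrArg j (hm g g')
    simp only [map_sub, map_add, h.jeq, (h.exact _).mpr ⟨a g g', rfl⟩, sub_zero] at h3
    exact h3
  · rintro b ⟨hb, c, hcl, hc⟩
    obtain ⟨s, hs⟩ := h.surj.hasRightInverse
    obtain ⟨a, ha⟩ := h.lift (f := fun r : U × U => b r.1 r.2 - dd (fun g => s (c g)) r.1 r.2)
      (fun r => by
        change j (b r.1 r.2 - (s (c r.1) + r.1 • s (c r.2) - s (c (r.1 * r.2)))) = 0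
        rw [map_sub, map_sub, map_add, h.jeq, hs, hs, hs]
        rw [show j (b r.1 r.2) = _ from hc r.1 r.2, sub_self])
    have hB : dd (fun g => s (c g)) ∈ B2l U M := dd_mem_B2l (hcl.comp s)
    refine ⟨fun g g' => a (g, g'), ?_, ?_⟩
    · have h3 : (fun g g' => i (a (g, g'))) ∈ Z2l U M := by
        have e : (fun g g' => i (a (g, g'))) = b - dd (fun g => s (c g)) := by
          funext g g'; exact ha (g, g')
        rw [e]
        exact sub_mem hb (B2l_le_Z2l' hM hB)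
      refine ⟨?_, h.lv2 h3.2⟩
      intro g g' g''
      apply h.inj
      rw [map_add, map_add, h.ieq]; exact h3.1 g g' g''
    · have e : (fun g g' => b g g' - i (a (g, g'))) = dd (fun g => s (c g)) := by
        funext g g'
        rw [ha (g, g')]; abel
      change (fun g g' => b g g' - i (a (g, g'))) ∈ B2l U M
      rw [e]; exact hB
  · rintro ⟨a, b⟩ ⟨ha, hb⟩
    change a ∈ Z2l U A at ha
    change (fun g g' => b g g' - i (a g g')) ∈ B2l U M at hb
    have e : b = (fun g g' => b g g' - i (a g g')) + fun g g' => i (a g g') := by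
      funext g g'; simp
    change (a ∈ Z2l U A ∧ (fun g g' => i (a g g')) ∈ B2l U M) ↔ b ∈ B2l U M
    constructor
    · rintro ⟨-, h7⟩
      rw [e]; exact add_mem hb h7
    · intro h7
      refine ⟨ha, ?_⟩
      have e' : (fun g g' => i (a g g')) = b - fun g g' => b g g' - i (a g g') := by
        funext g g'; simp
      rw [e']; exact sub_mem h7 hb

theorem Ses.B2M_le (hM : Sm U M) : B2l U M ≤ K2A U j := by
  intro x hx
  refine ⟨B2l_le_Z2l' hM hx, ?_⟩
  obtain ⟨b, hb, hb'⟩ := hx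
  exact ⟨fun g => j (b g), hb.comp j, fun g g' => by beta_reduce; rw [hb', map_sub, map_add, h.jeq]⟩

theorem Ses.K2M_le : K2A U j ≤ Z2l U M := fun _ ha => ha.1

theorem Ses.r7 : (K2A U j).relIndex (Z2l U M) = (B2l U C).relIndex (K2C U j) := by
  refine relIndex_corr
    { carrier := {r : (U → U → M) × (U → U → C) | r.1 ∈ Z2l U M ∧ ∀ g g', r.2 g g' = j (r.1 g g')}
      zero_mem' := ⟨zero_mem _, by simp⟩
      add_mem' := fun ha hb => ⟨add_mem ha.1 hb.1, fun g g' => by simp [ha.2, hb.2]⟩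
      neg_mem' := fun ha => ⟨neg_mem ha.1, fun g g' => by simp [ha.2]⟩ } _ _ _ _ ?_ ?_ ?_ ?_ ?_
  · rintro r ⟨hr, -⟩; exact hr
  · intro x hx; exact ⟨fun g g' => j (x g g'), hx, fun g g' => rfl⟩
  · rintro ⟨b, c⟩ ⟨hb, hc⟩
    exact ⟨b, hb, hc⟩
  · rintro c ⟨b, hb, hc⟩
    exact ⟨b, hb, hc⟩
  · rintro ⟨b, c⟩ ⟨hb, hc⟩
    have e : c = fun g g' => j (b g g') := funext fun g => funext (hc g)
    change (b ∈ Z2l U M ∧ (fun g g' => j (b g g')) ∈ B2l U C) ↔ c ∈ B2l U C
    rw [e]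
    exact ⟨fun h7 => h7.2, fun h7 => ⟨hb, h7⟩⟩

theorem Ses.K2C_le : K2C U j ≤ Z2l U C := by
  rintro c ⟨b, hb, hc⟩
  have e : c = fun g g' => j (b g g') := funext fun g => funext (hc g)
  rw [e]
  exact ⟨fun g g' g'' => by beta_reduce; rw [← map_add, hb.1 g g' g'', map_add, h.jeq], hb.2.comp j⟩

omit h in
theorem h0_eq (U N : Type*) [Group U] [TopologicalSpace U] [AddCommGroup N]
    [DistribMulAction U N] :
    h0 U N = (⊥ : AddSubgroup N).relIndex (fix N (⊤ : Subgroup U)) := by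
  rw [AddSubgroup.relIndex_bot_left]; rfl

/-- **the truncated long exact sequence: a count** -/
theorem Ses.count (hM : Sm U M) (h2C : h2 U C ≠ 0) :
    h0 U M * h2 U M * (h1 U A * h1 U C) ≤
      h1 U M * ((h0 U A * h2 U A) * (h0 U C * h2 U C)) := by
  have e0 : h0 U M = h0 U A * (⊥ : AddSubgroup C).relIndex (imM U j) := by
    rw [h0_eq U M, h0_eq U A, h.r0, ← h.r1, ← AddSubgroup.inf_relIndex_right j.ker,
      AddSubgroup.relIndex_mul_relIndex _ _ _ bot_le inf_le_right]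
  have e1 : h0 U C = (⊥ : AddSubgroup C).relIndex (imM U j) * (B1 U A).relIndex (K1A U i) := by
    rw [h0_eq U C, ← h.r2 hM, AddSubgroup.relIndex_mul_relIndex _ _ _ bot_le h.imM_le]
  have e2 : h1 U A = (B1 U A).relIndex (K1A U i) * (B1 U M).relIndex (K1A U j) := by
    rw [← h.r3 hM, AddSubgroup.relIndex_mul_relIndex _ _ _ (h.B1A_le hM) h.K1A_le]; rfl
  have e3 : h1 U M = (B1 U M).relIndex (K1A U j) * (B1 U C).relIndex (K1C U j) := by
    rw [← h.r4, AddSubgroup.relIndex_mul_relIndex _ _ _ (h.B1M_le hM) h.K1M_le]; rfl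
  have e4 : h1 U C = (B1 U C).relIndex (K1C U j) * (B2l U A).relIndex (K2A U i) := by
    rw [← h.r5 hM, AddSubgroup.relIndex_mul_relIndex _ _ _ (h.B1C_le hM) h.K1C_le]; rfl
  have e5 : h2 U A = (B2l U A).relIndex (K2A U i) * (B2l U M).relIndex (K2A U j) := by
    rw [← h.r6 hM, AddSubgroup.relIndex_mul_relIndex _ _ _ (h.B2A_le hM) h.K2A_le]; rfl
  have e6 : h2 U M = (B2l U M).relIndex (K2A U j) * (B2l U C).relIndex (K2C U j) := by
    rw [← h.r7, AddSubgroup.relIndex_mul_relIndex _ _ _ (h.B2M_le hM) h.K2M_le]; rfl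
  have e7 : (B2l U C).relIndex (K2C U j) ≤ h2 U C :=
    AddSubgroup.relIndex_le_of_le_right h.K2C_le h2C
  rw [e0, e1, e2, e3, e4, e5, e6]
  refine le_trans (le_of_eq ?_) (Nat.mul_le_mul_left _ (Nat.mul_le_mul_left _
    (Nat.mul_le_mul_left _ e7)))
  ring

/-- finiteness in degree one -/
theorem Ses.h1_ne (hM : Sm U M) (hA : h1 U A ≠ 0) (hC : h1 U C ≠ 0) : h1 U M ≠ 0 := by
  have e2 : h1 U A = (B1 U A).relIndex (K1A U i) * (B1 U M).relIndex (K1A U j) := by
    rw [← h.r3 hM, AddSubgroup.relIndex_mul_relIndex _ _ _ (h.B1A_le hM) h.K1A_le]; rfl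
  have e3 : h1 U M = (B1 U M).relIndex (K1A U j) * (B1 U C).relIndex (K1C U j) := by
    rw [← h.r4, AddSubgroup.relIndex_mul_relIndex _ _ _ (h.B1M_le hM) h.K1M_le]; rfl
  have e4 : h1 U C = (B1 U C).relIndex (K1C U j) * (B2l U A).relIndex (K2A U i) := by
    rw [← h.r5 hM, AddSubgroup.relIndex_mul_relIndex _ _ _ (h.B1C_le hM) h.K1C_le]; rfl
  rw [e3]
  exact mul_ne_zero (right_ne_zero_of_mul (e2 ▸ hA)) (left_ne_zero_of_mul (e4 ▸ hC))

/-- finiteness in degree two -/
theorem Ses.h2_ne (hM : Sm U M) (hA : h2 U A ≠ 0) (hC : h2 U C ≠ 0) : h2 U M ≠ 0 := by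
  have e5 : h2 U A = (B2l U A).relIndex (K2A U i) * (B2l U M).relIndex (K2A U j) := by
    rw [← h.r6 hM, AddSubgroup.relIndex_mul_relIndex _ _ _ (h.B2A_le hM) h.K2A_le]; rfl
  have e6 : h2 U M = (B2l U M).relIndex (K2A U j) * (B2l U C).relIndex (K2C U j) := by
    rw [← h.r7, AddSubgroup.relIndex_mul_relIndex _ _ _ (h.B2M_le hM) h.K2M_le]; rfl
  rw [e6]
  refine mul_ne_zero (right_ne_zero_of_mul (e5 ▸ hA)) fun h0 => hC ?_
  exact AddSubgroup.relIndex_eq_zero_of_le_right h.K2C_le h0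

/-- `H¹(C) → H²(A)` : finiteness of `H¹(C)` -/
theorem Ses.h1C_ne (hM : Sm U M) (hMM : h1 U M ≠ 0) (hA : h2 U A ≠ 0) : h1 U C ≠ 0 := by
  have e3 : h1 U M = (B1 U M).relIndex (K1A U j) * (B1 U C).relIndex (K1C U j) := by
    rw [← h.r4, AddSubgroup.relIndex_mul_relIndex _ _ _ (h.B1M_le hM) h.K1M_le]; rfl
  have e4 : h1 U C = (B1 U C).relIndex (K1C U j) * (B2l U A).relIndex (K2A U i) := by
    rw [← h.r5 hM, AddSubgroup.relIndex_mul_relIndex _ _ _ (h.B1C_le hM) h.K1C_le]; rfl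
  have e5 : h2 U A = (B2l U A).relIndex (K2A U i) * (B2l U M).relIndex (K2A U j) := by
    rw [← h.r6 hM, AddSubgroup.relIndex_mul_relIndex _ _ _ (h.B2A_le hM) h.K2A_le]; rfl
  rw [e4]
  exact mul_ne_zero (right_ne_zero_of_mul (e3 ▸ hMM)) (left_ne_zero_of_mul (e5 ▸ hA))

/-- finiteness of `H²(A)` -/
theorem Ses.h2A_ne (hM : Sm U M) (hMM : h2 U M ≠ 0) (hC : h1 U C ≠ 0) : h2 U A ≠ 0 := by
  have e4 : h1 U C = (B1 U C).relIndex (K1C U j) * (B2l U A).relIndex (K2A U i) := by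
    rw [← h.r5 hM, AddSubgroup.relIndex_mul_relIndex _ _ _ (h.B1C_le hM) h.K1C_le]; rfl
  have e5 : h2 U A = (B2l U A).relIndex (K2A U i) * (B2l U M).relIndex (K2A U j) := by
    rw [← h.r6 hM, AddSubgroup.relIndex_mul_relIndex _ _ _ (h.B2A_le hM) h.K2A_le]; rfl
  have e6 : h2 U M = (B2l U M).relIndex (K2A U j) * (B2l U C).relIndex (K2C U j) := by
    rw [← h.r7, AddSubgroup.relIndex_mul_relIndex _ _ _ (h.B2M_le hM) h.K2M_le]; rfl
  rw [e5]
  exact mul_ne_zero (right_ne_zero_of_mul (e4 ▸ hC)) (left_ne_zero_of_mul (e6 ▸ hMM))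

end les

end Fermat.Agent.TWH1
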