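import Fermat.Agent.TWLocal.Loc1

/-!
# The multiplicative group of a local field modulo `p` as a Galois module
-/

set_option autoImplicit false
set_option maxHeartbeats 400000
set_option linter.style.haveILetI false
set_option linter.unusedSectionVars false

namespace Fermat.Agent.TWH1

open Fermat.Agent.CFT Fermat.Agent.CFTLocal Fermat.Agent.EqDir Fermat.Agent.TWLocal

noncomputable section

section HomG

variable {G : Type*} [Group G] {X A B : Type*} [AddCommGroup X] [DistribMulAction G X]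
  [AddCommGroup A] [DistribMulAction G A] [AddCommGroup B] [DistribMulAction G B]

/-- homomorphisms to a product -/
def homGProd : HomG G X (A × B) ≃ HomG G X A × HomG G X B where
  toFun f := (⟨(AddMonoidHom.fst A B).comp f.1, fun g x => congrArg Prod.fst (f.2 g x)⟩,
    ⟨(AddMonoidHom.snd A B).comp f.1, fun g x => congrArg Prod.snd (f.2 g x)⟩)
  invFun f := ⟨f.1.1.prod f.2.1, fun g x => Prod.ext (f.1.2 g x) (f.2.2 g x)⟩
  left_inv f := Subtype.ext (AddMonoidHom.ext fun x => rfl)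
  right_inv f := Prod.ext (Subtype.ext (AddMonoidHom.ext fun x => rfl))
    (Subtype.ext (AddMonoidHom.ext fun x => rfl))

theorem card_homGProd : Nat.card (HomG G X (A × B)) =
    Nat.card (HomG G X A) * Nat.card (HomG G X B) := by
  rw [Nat.card_congr homGProd, Nat.card_prod]

instance [Finite X] [Finite A] : Finite (HomG G X A) := by
  refine Finite.of_injective (fun f : HomG G X A => (f.1 : X → A)) fun f g h => ?_
  exact Subtype.ext (DFunLike.coe_injective h)

instance : Nonempty (HomG G X A) := ⟨⟨0, fun g _ => (smul_zero g).symm⟩⟩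

end HomG

variable {q : ℕ} [hq : Fact q.Prime] (N : Subgroup (LG q)) [hNn : N.Normal] (p : ℕ)
  [hp : Fact p.Prime]

/-- the multiplicative group modulo `p` -/
def WK : Type := fix (LM q) N ⧸ (mulN (fix (LM q) N) p).range

instance : AddCommGroup (WK N p) := inferInstanceAs (AddCommGroup
  (fix (LM q) N ⧸ (mulN (fix (LM q) N) p).range))

theorem smul_mem_range (g : LG q ⧸ N) (a : fix (LM q) N) (ha : a ∈ (mulN (fix (LM q) N) p).range) :
    g • a ∈ (mulN (fix (LM q) N) p).range := by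
  obtain ⟨b, rfl⟩ := ha
  exact ⟨g • b, (smul_comm g p b).symm⟩

instance : DistribMulAction (LG q ⧸ N) (WK N p) :=
  quotDMA (mulN (fix (LM q) N) p).range (fun g a ha => smul_mem_range N p g a ha)

/-- projection -/
def piK : fix (LM q) N →+ WK N p := QuotientAddGroup.mk' _

theorem piK_surj : Function.Surjective (piK N p) := QuotientAddGroup.mk'_surjective _

theorem piK_smul (g : LG q ⧸ N) (x : fix (LM q) N) : piK N p (g • x) = g • piK N p x := rfl

theorem piK_ker (x : fix (LM q) N) : piK N p x = 0 ↔ ∃ y, x = p • y := by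
  refine (QuotientAddGroup.eq_zero_iff x).trans ?_
  exact ⟨fun ⟨y, hy⟩ => ⟨y, hy.symm⟩, fun ⟨y, hy⟩ => ⟨y, hy.symm⟩⟩

/-- the torsion of the multiplicative group -/
def MK : AddSubgroup (fix (LM q) N) := (mulN (fix (LM q) N) p).ker

instance : Stab (LG q ⧸ N) (MK N p) where
  smul_mem g a ha := by
    show p • g • a = 0
    rw [smul_comm, show p • a = 0 from ha, smul_zero]

variable {N}

theorem finite_WK (hN : IsOpen (N : Set (LG q))) : Finite (WK N p) := by
  have : (mulN (fix (LM q) N) p).range.FiniteIndex := ⟨(L1 p N hN).1.coker⟩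
  exact AddSubgroup.finite_quotient_of_finiteIndex

theorem finite_MK (hN : IsOpen (N : Set (LG q))) : Finite (MK N p) :=
  Nat.finite_of_card_ne_zero (L1 p N hN).1.ker

/-- the underlying integer -/
def tz : Triv ℤ →+ ℤ := AddMonoidHom.id ℤ

/-- the underlying residue -/
def tp (p : ℕ) : Triv (ZMod p) →+ ZMod p := AddMonoidHom.id (ZMod p)

theorem tz_inj {n m : Triv ℤ} (h : tz n = tz m) : n = m := h

theorem tz_surj (n : ℤ) : ∃ m : Triv ℤ, tz m = n := ⟨n, rfl⟩

theorem tp_inj {n m : Triv (ZMod p)} (h : tp p n = tp p m) : n = m := h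

theorem tp_redT (n : Triv ℤ) : tp p (redT p n) = ((tz n : ℤ) : ZMod p) := rfl

variable (N) in
/-- the map from units and a power of `q` -/
def jmap (ρ : ℝ) (hρ : 0 < ρ ∧ ρ ≤ 1) : VV N ρ hρ × Triv ℤ →+ fix (LM q) N where
  toFun x := (x.1 : fix (LM q) N) + (tz x.2) • qF N
  map_zero' := by
    show (0 : fix (LM q) N) + (0 : ℤ) • qF N = 0
    rw [zero_smul, add_zero]
  map_add' x y := by
    show ((x.1 : fix (LM q) N) + (y.1 : fix (LM q) N)) + (tz x.2 + tz y.2) • qF N = _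
    rw [add_smul]; abel

theorem jmap_apply (ρ : ℝ) (hρ : 0 < ρ ∧ ρ ≤ 1) (v : VV N ρ hρ) (n : Triv ℤ) :
    jmap N ρ hρ (v, n) = (v : fix (LM q) N) + tz n • qF N := rfl

theorem el_qF : el ((qF N : fix (LM q) N) : LM q) = ((q : ℕ) : Om q) := eF_ofF _ _ _

theorem smul_qF (g : LG q ⧸ N) : g • qF N = qF N := by
  induction g using QuotientGroup.induction_on with
  | H g =>
    apply Subtype.ext
    rw [coe_quot_smul]
    apply el_injective
    show g (el ((qF N : fix (LM q) N) : LM q)) = _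
    rw [el_qF, map_natCast]

theorem norm_eF_zsmul (k : ℤ) (a : fix (LM q) N) : ‖eF (k • a)‖ = ‖eF a‖ ^ k := by
  have : eF (k • a) = eF a ^ k := el_zsmul k (a : LM q)
  rw [this, norm_zpow]

theorem jmap_injective (ρ : ℝ) (hρ : 0 < ρ ∧ ρ ≤ 1) : Function.Injective (jmap N ρ hρ) := by
  rw [injective_iff_map_eq_zero]
  rintro ⟨v, n⟩ h
  rw [jmap_apply] at h
  have h1 : ‖eF (v : fix (LM q) N)‖ = 1 := VV_le_UU N ρ hρ v.2
  have h2 : ‖eF ((v : fix (LM q) N) + tz n • qF N)‖ = 1 := by rw [h, eF_zero, norm_one]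
  rw [eF_add, norm_mul, h1, one_mul, norm_eF_zsmul] at h2
  have h3 : ‖eF (qF N)‖ = (q : ℝ)⁻¹ := by rw [qF, eF_ofF, norm_q]
  rw [h3] at h2
  have hn : tz n = 0 := by
    have hq1 : (1 : ℝ) < q := by exact_mod_cast hq.out.one_lt
    rw [inv_zpow', zpow_eq_one_iff_right₀ (by positivity) hq1.ne'] at h2
    exact neg_eq_zero.mp h2
  rw [hn, zero_smul, add_zero] at h
  exact Prod.ext (Subtype.ext h) (tz_inj hn)

theorem jmap_smul (ρ : ℝ) (hρ : 0 < ρ ∧ ρ ≤ 1) (g : LG q ⧸ N) (x : VV N ρ hρ × Triv ℤ) :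
    jmap N ρ hρ (g • x) = g • jmap N ρ hρ x := by
  obtain ⟨v, n⟩ := x
  have h1 : g • (v, n) = (g • v, n) := rfl
  rw [h1, jmap_apply, jmap_apply, smul_add, smul_comm g (tz n), smul_qF]
  rfl

theorem jmap_index (hN : IsOpen (N : Set (LG q))) (ρ : ℝ) (hρ : 0 < ρ ∧ ρ ≤ 1) :
    (jmap N ρ hρ).range.index ≠ 0 := by
  obtain ⟨π, h1, h2, h3, h4⟩ := exists_pi_ram hN
  have hπ0 : ‖eF π‖ ≠ 0 := norm_ne_zero_iff.mpr (eF_ne_zero π)
  have hidx := VV_relIndex hN ρ hρ
  have : Finite (UU N ⧸ (VV N ρ hρ).addSubgroupOf (UU N)) := by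
    have : ((VV N ρ hρ).addSubgroupOf (UU N)).FiniteIndex := ⟨hidx⟩
    exact AddSubgroup.finite_quotient_of_finiteIndex
  have hu₀ : (ram N : ℤ) • π - qF N ∈ UU N := by
    rw [mem_UU]
    have : eF ((ram N : ℤ) • π - qF N) = eF ((ram N : ℤ) • π) / eF (qF N) := el_sub _ _
    rw [this, norm_div, norm_eF_zsmul, zpow_natCast, h3, qF, eF_ofF, norm_q, div_self]
    exact inv_ne_zero (by exact_mod_cast hq.out.ne_zero)
  set e := ram N with he
  have hfin : Finite (fix (LM q) N ⧸ (jmap N ρ hρ).range) := by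
    refine Finite.of_surjective (fun x : (UU N ⧸ (VV N ρ hρ).addSubgroupOf (UU N)) × Fin e =>
      (QuotientAddGroup.mk (((x.1.out : UU N) : fix (LM q) N) + (x.2 : ℕ) • π) :
        fix (LM q) N ⧸ (jmap N ρ hρ).range)) ?_
    intro y
    obtain ⟨a, rfl⟩ := QuotientAddGroup.mk_surjective y
    obtain ⟨k, hk⟩ := h2 a
    have hu : a - k • π ∈ UU N := by
      rw [mem_UU]
      have : eF (a - k • π) = eF a / eF (k • π) := el_sub _ _
      rw [this, norm_div, norm_eF_zsmul, hk, div_self (zpow_ne_zero _ hπ0)]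
    set i := k % (e : ℤ) with hi
    set m := k / (e : ℤ) with hm
    have hkm : k = i + (e : ℤ) * m := (Int.emod_add_mul_ediv k e).symm
    have hi0 : 0 ≤ i := Int.emod_nonneg _ (by exact_mod_cast h4.ne')
    have hie : i < e := Int.emod_lt_of_pos _ (by exact_mod_cast h4)
    let u₁ : UU N := ⟨(a - k • π) + m • ((e : ℤ) • π - qF N),
      (UU N).add_mem hu ((UU N).zsmul_mem hu₀ m)⟩
    refine ⟨(QuotientAddGroup.mk u₁, ⟨i.toNat, by omega⟩), ?_⟩
    have h5 : (QuotientAddGroup.mk (QuotientAddGroup.mk u₁ :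
      UU N ⧸ (VV N ρ hρ).addSubgroupOf (UU N)).out : UU N ⧸ (VV N ρ hρ).addSubgroupOf (UU N)) =
        QuotientAddGroup.mk u₁ := Quotient.out_eq _
    obtain ⟨w, hw⟩ : ∃ w, w = (QuotientAddGroup.mk u₁ :
      UU N ⧸ (VV N ρ hρ).addSubgroupOf (UU N)).out := ⟨_, rfl⟩
    rw [← hw, QuotientAddGroup.eq, AddSubgroup.mem_addSubgroupOf] at h5
    show (QuotientAddGroup.mk (((QuotientAddGroup.mk u₁ :
      UU N ⧸ (VV N ρ hρ).addSubgroupOf (UU N)).out : fix (LM q) N) + (i.toNat) • π) :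
        fix (LM q) N ⧸ (jmap N ρ hρ).range) = _
    rw [← hw, QuotientAddGroup.eq]
    obtain ⟨m', hm'⟩ := tz_surj m
    refine ⟨(⟨_, h5⟩, m'), ?_⟩
    rw [jmap_apply, hm']
    show (-(w : fix (LM q) N) + ((a - k • π) + m • ((e : ℤ) • π - qF N))) + m • qF N = _
    have h6 : (i.toNat : ℕ) • π = i • π := by
      rw [← natCast_zsmul, Int.toNat_of_nonneg hi0]
    rw [h6, smul_sub, smul_smul, mul_comm m, hkm, add_smul]
    abel
  have : (jmap N ρ hρ).range.index = Nat.card (fix (LM q) N ⧸ (jmap N ρ hρ).range) := rfl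
  rw [this]
  exact Nat.card_pos.ne'

/-- **counting for the multiplicative group** -/
theorem count_K [Fintype (LG q ⧸ N)] (hN : IsOpen (N : Set (LG q))) {ζ : Om q}
    (hζ : IsPrimitiveRoot ζ p) {X : Type*} [AddCommGroup X] [DistribMulAction (LG q ⧸ N) X]
    (hX : IsPr (LG q ⧸ N) p X) (ρ : ℝ) (hρ : 0 < ρ) (hρ1 : ρ ≤ 1) (hρp : ρ ≤ ‖(p : Om q)‖)
    (hρζ : ρ ≤ ‖1 - ζ‖) : Nat.card (HomG (LG q ⧸ N) X (WK N p)) =
      Nat.card (HomG (LG q ⧸ N) X (MK N p)) * (Nat.card (HomG (LG q ⧸ N) X (WB N p ρ hρ)) *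
        Nat.card (HomG (LG q ⧸ N) X (Triv (ZMod p)))) := by
  have := finite_WB p ρ hρ hN
  have := finite_MK p hN
  have : Finite (Triv (ZMod p)) := inferInstanceAs (Finite (ZMod p))
  rw [← card_homGProd]
  refine hom_count hX (jmap N ρ ⟨hρ, hρ1⟩) (jmap_injective ρ _) (jmap_smul ρ _)
    (jmap_index hN ρ _) ?_ (piK N p) (piK_surj N p) (piK_smul N p) (piK_ker N p)
    ((piV N p ρ hρ hρ1 hρp).prodMap (redT p)) ?_ ?_ ?_ (MK N p).subtype
    (MK N p).subtype_injective (fun g x => rfl) ?_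
  · rintro ⟨v, n⟩ h
    have h1 : p • v = 0 := congrArg Prod.fst h
    have h2 : p • tz n = 0 := by
      rw [← map_nsmul, show p • n = 0 from congrArg Prod.snd h, map_zero]
    refine Prod.ext (VV_tors p ρ hρ hζ hρ1 hρζ v h1) (tz_inj ?_)
    show tz n = 0
    rw [nsmul_eq_mul, mul_eq_zero] at h2
    exact h2.resolve_left (by exact_mod_cast hp.out.ne_zero)
  · rintro ⟨w, t⟩
    obtain ⟨v, rfl⟩ := piV_surj p ρ hρ hρ1 hρp w
    obtain ⟨m, hm⟩ := tz_surj (((tp p t).val : ℕ) : ℤ)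
    refine ⟨(v, m), Prod.ext rfl (tp_inj p ?_)⟩
    show tp p (redT p m) = tp p t
    rw [tp_redT, hm, Int.cast_natCast, ZMod.natCast_zmod_val]
  · rintro g ⟨v, n⟩
    exact Prod.ext (piV_smul p ρ hρ hρ1 hρp g v) rfl
  · rintro ⟨v, n⟩
    constructor
    · intro h
      have h1 : piV N p ρ hρ hρ1 hρp v = 0 := congrArg Prod.fst h
      have h2 : ((tz n : ℤ) : ZMod p) = 0 := congrArg Prod.snd h
      obtain ⟨v', rfl⟩ := (piV_ker p ρ hρ hζ hρ1 hρp hρζ v).mp h1
      rw [ZMod.intCast_zmod_eq_zero_iff_dvd] at h2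
      obtain ⟨n', hn'⟩ := h2
      obtain ⟨m, hm⟩ := tz_surj n'
      refine ⟨(v', m), Prod.ext rfl (tz_inj ?_)⟩
      show tz n = tz (p • m)
      rw [map_nsmul, hm, hn', nsmul_eq_mul]
    · rintro ⟨⟨v', n'⟩, h⟩
      rw [h, map_nsmul]
      refine Prod.ext ?_ ?_
      · show p • piV N p ρ hρ hρ1 hρp v' = 0
        rw [← map_nsmul]
        exact (piV_ker p ρ hρ hζ hρ1 hρp hρζ _).mpr ⟨v', rfl⟩
      · refine tp_inj p ?_
        show p • tp p (redT p n') = 0
        exact zmod_smul _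
  · intro u
    exact ⟨fun h => ⟨⟨u, h⟩, rfl⟩, by rintro ⟨x, rfl⟩; exact x.2⟩

end

end Fermat.Agent.TWH1
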