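import Fermat.Agent.TWH1.Loc2

/-!
# The additive group of a local field modulo `p` as a Galois module
-/

set_option autoImplicit false
set_option maxHeartbeats 400000
set_option linter.style.haveILetI false
set_option linter.unusedSectionVars false

namespace Fermat.Agent.TWH1

open Fermat.Agent.CFT Fermat.Agent.CFTLocal Fermat.Agent.EqDir Fermat.Agent.TWLocal

noncomputable section

variable {p : ℕ} [hp : Fact p.Prime] {N : Subgroup (LG p)} [hNn : N.Normal]

theorem smul_mem_EE (g : LG p) {x : Om p} (hx : x ∈ EE N) : g x ∈ EE N := by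
  rw [mem_EE] at hx ⊢
  intro n hn
  have h1 : g⁻¹ * n * g ∈ N := by
    have := hNn.conj_mem n hn g⁻¹
    simpa using this
  have h2 := hx _ h1
  have h3 : n (g x) = g ((g⁻¹ * n * g) x) := by
    rw [← AlgEquiv.mul_apply, ← AlgEquiv.mul_apply]
    congr 1
    group
  rw [h3, h2]

/-- restriction to the fixed field -/
def resE (g : LG p) : EE N →ₐ[ℚ_[p]] EE N :=
  ((g : Om p →ₐ[ℚ_[p]] Om p).comp (EE N).val).codRestrict (EE N).toSubalgebra
    (fun x => smul_mem_EE g x.2)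

theorem resE_apply (g : LG p) (x : EE N) : ((resE (N := N) g x : EE N) : Om p) = g (x : Om p) :=
  rfl

theorem resE_inj (hN : IsOpen (N : Set (LG p))) {g h : LG p}
    (hgh : resE (N := N) g = resE h) : g⁻¹ * h ∈ N := by
  have h1 : g⁻¹ * h ∈ (EE N).fixingSubgroup := by
    rw [IntermediateField.mem_fixingSubgroup_iff]
    intro x hx
    have h2 := congrArg (fun f : EE N →ₐ[ℚ_[p]] EE N => ((f ⟨x, hx⟩ : EE N) : Om p)) hgh
    have h3 : g x = h x := h2
    rw [AlgEquiv.mul_apply, ← h3]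
    exact inv_smul_smul g x
  rwa [fixing_EE hN] at h1

/-- **normal basis** -/
theorem exists_normal (hN : IsOpen (N : Set (LG p))) :
    ∃ θ : EE N, LinearIndependent ℚ_[p] (fun x : LG p ⧸ N => resE (N := N) x.out θ) := by
  have := finiteDimensional_EE hN
  obtain ⟨θ, hθ⟩ := exists_linearIndependent_algEquiv_apply ℚ_[p] (EE N)
  refine ⟨θ, ?_⟩
  let f : LG p ⧸ N → (EE N ≃ₐ[ℚ_[p]] EE N) := fun x =>
    (algEquivEquivAlgHom ℚ_[p] (EE N)).symm (resE x.out)
  have hf : Function.Injective f := by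
    intro x y hxy
    have h1 : resE (N := N) x.out = resE y.out :=
      (algEquivEquivAlgHom ℚ_[p] (EE N)).symm.injective hxy
    have h2 := resE_inj hN h1
    rw [← QuotientGroup.eq, QuotientGroup.out_eq', QuotientGroup.out_eq'] at h2
    exact h2
  have h1 := hθ.comp f hf
  have h2 : (fun x : LG p ⧸ N => resE (N := N) x.out θ) = (fun σ : EE N ≃ₐ[ℚ_[p]] EE N => σ θ) ∘ f := by
    funext x
    have h3 : ((algEquivEquivAlgHom ℚ_[p] (EE N)) (f x)) = resE x.out :=
      (algEquivEquivAlgHom ℚ_[p] (EE N)).apply_symm_apply _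
    rw [← h3]
    rfl
  rw [h2]
  exact h1

variable [Fintype (LG p ⧸ N)]

/-- the lattice spanned by a normal basis -/
def nlat (θ : fix (Om p) N) (f : EqDir.PFun (LG p ⧸ N) ℤ_[p]) : Om p :=
  ∑ x : LG p ⧸ N, (algebraMap ℚ_[p] (Om p) ((f x : ℤ_[p]) : ℚ_[p])) * ((x • θ : fix (Om p) N) : Om p)

theorem coe_smul_out (θ : fix (Om p) N) (x : LG p ⧸ N) :
    ((x • θ : fix (Om p) N) : Om p) = x.out (θ : Om p) := by
  conv_lhs => rw [← QuotientGroup.out_eq' x]
  rfl

theorem norm_nlat_lt {θ : fix (Om p) N} {ρ : ℝ} (hρ : 0 < ρ) (hθ : ‖(θ : Om p)‖ < ρ)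
    (f : EqDir.PFun (LG p ⧸ N) ℤ_[p]) : ‖nlat θ f‖ < ρ := by
  unfold nlat
  have key : ∀ s : Finset (LG p ⧸ N), ‖∑ x ∈ s, (algebraMap ℚ_[p] (Om p) ((f x : ℤ_[p]) : ℚ_[p])) *
      ((x • θ : fix (Om p) N) : Om p)‖ < ρ := by
    intro s
    classical
    induction s using Finset.induction_on with
    | empty => simpa using hρ
    | insert a s ha ih =>
      rw [Finset.sum_insert ha]
      refine (norm_add_le_max' _ _).trans_lt (max_lt ?_ ih)
      rw [norm_mul, coe_smul_out, norm_gal]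
      have h1 : ‖algebraMap ℚ_[p] (Om p) ((f a : ℤ_[p]) : ℚ_[p])‖ ≤ 1 := by
        rw [norm_algebraMap']
        exact (f a : ℤ_[p]).2
      calc _ ≤ 1 * ‖(θ : Om p)‖ := mul_le_mul_of_nonneg_right h1 (norm_nonneg _)
        _ < ρ := by rw [one_mul]; exact hθ
  exact key _

theorem nlat_mem (θ : fix (Om p) N) (f : EqDir.PFun (LG p ⧸ N) ℤ_[p]) : nlat θ f ∈ fix (Om p) N := by
  rw [mem_fixOm]
  refine sum_mem fun x _ => mul_mem ?_ (mem_fixOm.mp (x • θ).2)
  exact (EE N).algebraMap_mem _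

/-- the map from the free module -/
def jlat (θ : fix (Om p) N) {ρ : ℝ} (hρ : 0 < ρ) (hθ : ‖(θ : Om p)‖ < ρ) :
    EqDir.PFun (LG p ⧸ N) ℤ_[p] →+ Bo N ρ hρ where
  toFun f := ⟨⟨nlat θ f, nlat_mem θ f⟩, norm_nlat_lt hρ hθ f⟩
  map_zero' := by
    apply Subtype.ext
    apply Subtype.ext
    show nlat θ 0 = 0
    unfold nlat
    refine Finset.sum_eq_zero fun x _ => ?_
    have : ((0 : EqDir.PFun (LG p ⧸ N) ℤ_[p]) x : ℤ_[p]) = 0 := rfl
    rw [this]
    simp
  map_add' f g := by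
    apply Subtype.ext
    apply Subtype.ext
    show nlat θ (f + g) = nlat θ f + nlat θ g
    unfold nlat
    rw [← Finset.sum_add_distrib]
    refine Finset.sum_congr rfl fun x _ => ?_
    have : ((f + g : EqDir.PFun (LG p ⧸ N) ℤ_[p]) x : ℤ_[p]) = f x + g x := rfl
    rw [this, PadicInt.coe_add, map_add, add_mul]

theorem jlat_coe (θ : fix (Om p) N) {ρ : ℝ} (hρ : 0 < ρ) (hθ : ‖(θ : Om p)‖ < ρ)
    (f : EqDir.PFun (LG p ⧸ N) ℤ_[p]) : (((jlat θ hρ hθ f : Bo N ρ hρ) : fix (Om p) N) : Om p) =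
      nlat θ f := rfl

theorem jlat_smul (θ : fix (Om p) N) {ρ : ℝ} (hρ : 0 < ρ) (hθ : ‖(θ : Om p)‖ < ρ)
    (g : LG p ⧸ N) (f : EqDir.PFun (LG p ⧸ N) ℤ_[p]) :
    jlat θ hρ hθ (g • f) = g • jlat θ hρ hθ f := by
  apply Subtype.ext
  apply Subtype.ext
  rw [jlat_coe]
  have h1 : (((g • jlat θ hρ hθ f : Bo N ρ hρ) : fix (Om p) N) : Om p) =
      g.out (nlat θ f) := coe_smul_out _ g
  rw [h1]
  unfold nlat
  rw [map_sum, ← Equiv.sum_comp (Equiv.mulLeft g)]
  refine Finset.sum_congr rfl fun x _ => ?_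
  rw [Equiv.coe_mulLeft, map_mul, AlgEquiv.commutes, mul_smul, coe_smul_out _ g]
  have : ((g • f : EqDir.PFun (LG p ⧸ N) ℤ_[p]) (g * x) : ℤ_[p]) = f x := by
    rw [EqDir.PFun.smul_apply, smul_eq_mul, inv_mul_cancel_left]
  rw [this]

/-- a small normal basis -/
theorem exists_theta (hN : IsOpen (N : Set (LG p))) {ρ : ℝ} (hρ : 0 < ρ) :
    ∃ θ : fix (Om p) N, ‖(θ : Om p)‖ < ρ ∧ ∃ b : Module.Basis (LG p ⧸ N) ℚ_[p] (EE N),
      ∀ x, ((b x : EE N) : Om p) = ((x • θ : fix (Om p) N) : Om p) := by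
  have := finiteDimensional_EE hN
  obtain ⟨θ₀, hθ₀⟩ := exists_normal (N := N) hN
  have hp1 : (1 : ℝ) < p := by exact_mod_cast hp.out.one_lt
  obtain ⟨m, hm⟩ := pow_unbounded_of_one_lt (‖(θ₀ : Om p)‖ / ρ) hp1
  have hpm : ((p : ℚ_[p]) ^ m) ≠ 0 := pow_ne_zero _ (Nat.cast_ne_zero.mpr hp.out.ne_zero)
  let θ₁ : EE N := ((p : ℚ_[p]) ^ m) • θ₀
  have hnorm : ‖(θ₁ : Om p)‖ < ρ := by
    have h1 : (θ₁ : Om p) = ((p : ℚ_[p]) ^ m) • (θ₀ : Om p) := rfl
    rw [h1, norm_smul, norm_pow, Padic.norm_p, inv_pow, inv_mul_lt_iff₀ (by positivity)]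
    rw [div_lt_iff₀ hρ] at hm
    exact hm
  have hind : LinearIndependent ℚ_[p] (fun x : LG p ⧸ N => resE (N := N) x.out θ₁) := by
    have h1 : (fun x : LG p ⧸ N => resE (N := N) x.out θ₁) =
        (fun _ : LG p ⧸ N => Units.mk0 _ hpm) • (fun x : LG p ⧸ N => resE (N := N) x.out θ₀) := by
      funext x
      show resE (N := N) x.out (((p : ℚ_[p]) ^ m) • θ₀) = ((p : ℚ_[p]) ^ m) • resE x.out θ₀
      rw [Algebra.smul_def, map_mul, AlgHom.commutes, ← Algebra.smul_def]
    rw [h1]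
    exact hθ₀.units_smul _
  have hcard : Fintype.card (LG p ⧸ N) = Module.finrank ℚ_[p] (EE N) := by
    rw [finrank_EE hN, ← Nat.card_eq_fintype_card]
    rfl
  refine ⟨⟨θ₁, mem_fixOm.mpr θ₁.2⟩, hnorm,
    basisOfLinearIndependentOfCardEqFinrank hind hcard, fun x => ?_⟩
  rw [coe_basisOfLinearIndependentOfCardEqFinrank, coe_smul_out]
  rfl

theorem jlat_main (hN : IsOpen (N : Set (LG p))) {ρ : ℝ} (hρ : 0 < ρ) :
    ∃ (θ : fix (Om p) N) (hθ : ‖(θ : Om p)‖ < ρ), Function.Injective (jlat θ hρ hθ) ∧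
      (jlat θ hρ hθ).range.index ≠ 0 := by
  have := finiteDimensional_EE hN
  obtain ⟨θ, hθ, b, hb⟩ := exists_theta hN hρ
  have hnl : ∀ f, nlat θ f = ((∑ x, ((f x : ℤ_[p]) : ℚ_[p]) • b x : EE N) : Om p) := by
    intro f
    unfold nlat
    rw [IntermediateField.coe_sum]
    refine Finset.sum_congr rfl fun x _ => ?_
    rw [← hb, IntermediateField.coe_smul, Algebra.smul_def]
  refine ⟨θ, hθ, ?_, ?_⟩
  · rw [injective_iff_map_eq_zero]
    intro f hf
    have h1 : nlat θ f = 0 := by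
      rw [← jlat_coe θ hρ hθ, hf]
      rfl
    rw [hnl] at h1
    have h2 : (∑ x, ((f x : ℤ_[p]) : ℚ_[p]) • b x : EE N) = 0 := Subtype.ext h1
    have h3 := Fintype.linearIndependent_iff.mp b.linearIndependent _ h2
    funext x
    have h4 := h3 x
    have h5 : (f x : ℤ_[p]) = 0 := by
      apply Subtype.ext
      exact h4
    exact h5
  · let B1 : AddSubgroup (EE N) :=
      { carrier := {x | ∀ i, ‖b.equivFun x i‖ ≤ 1}
        zero_mem' := by intro i; simp
        add_mem' := by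
          intro x y hx hy i
          rw [map_add, Pi.add_apply]
          exact (Padic.nonarchimedean _ _).trans (max_le (hx i) (hy i))
        neg_mem' := by
          intro x hx i
          rw [map_neg, Pi.neg_apply, norm_neg]
          exact hx i }
    have hB1 : ∀ x, x ∈ B1 ↔ ∀ i, ‖b.equivFun x i‖ ≤ 1 := fun x => Iff.rfl
    have h1 : ∃ ρ' : ℝ, 0 < ρ' ∧ ∀ x : EE N, ‖x‖ ≤ ρ' → x ∈ B1 := by
      let e : EE N ≃L[ℚ_[p]] (LG p ⧸ N → ℚ_[p]) := b.equivFunL
      refine ⟨(‖(e : EE N →L[ℚ_[p]] (LG p ⧸ N → ℚ_[p]))‖ + 1)⁻¹, by positivity, fun x hx i => ?_⟩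
      calc ‖b.equivFun x i‖ ≤ ‖e x‖ := norm_le_pi_norm (e x) i
        _ ≤ ‖(e : EE N →L[ℚ_[p]] (LG p ⧸ N → ℚ_[p]))‖ * ‖x‖ :=
          (e : EE N →L[ℚ_[p]] (LG p ⧸ N → ℚ_[p])).le_opNorm x
        _ ≤ (‖(e : EE N →L[ℚ_[p]] (LG p ⧸ N → ℚ_[p]))‖ + 1) *
            (‖(e : EE N →L[ℚ_[p]] (LG p ⧸ N → ℚ_[p]))‖ + 1)⁻¹ :=
          mul_le_mul (by linarith) hx (norm_nonneg _) (by positivity)
        _ = 1 := mul_inv_cancel₀ (by positivity)
    have h2 := relIndex_ne_zero (EE N) p B1 (BB N ρ hρ) h1 (BB_in N ρ hρ) (BB_out N ρ hρ)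
    let e : BB N ρ hρ ≃+ Bo N ρ hρ :=
      { toFun := fun x => ⟨⟨((x : EE N) : Om p), mem_fixOm.mpr (x : EE N).2⟩, x.2⟩
        invFun := fun x => ⟨⟨((x : fix (Om p) N) : Om p), mem_fixOm.mp x.1.2⟩, x.2⟩
        left_inv := fun x => rfl
        right_inv := fun x => rfl
        map_add' := fun x y => rfl }
    have h3 : (jlat θ hρ hθ).range.comap e.toAddMonoidHom = B1.addSubgroupOf (BB N ρ hρ) := by
      ext x
      rw [AddSubgroup.mem_comap, AddSubgroup.mem_addSubgroupOf, hB1]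
      constructor
      · rintro ⟨f, hf⟩ i
        have h4 : nlat θ f = ((x : EE N) : Om p) := by
          rw [← jlat_coe θ hρ hθ, hf]
          rfl
        rw [hnl] at h4
        have h5 : (∑ x, ((f x : ℤ_[p]) : ℚ_[p]) • b x : EE N) = (x : EE N) := Subtype.ext h4
        rw [← h5, Module.Basis.equivFun_apply, Module.Basis.repr_sum_self]
        exact (f i : ℤ_[p]).2
      · intro hx
        let f : EqDir.PFun (LG p ⧸ N) ℤ_[p] := fun i => (⟨b.equivFun (x : EE N) i, hx i⟩ : ℤ_[p])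
        refine ⟨f, ?_⟩
        apply Subtype.ext
        apply Subtype.ext
        rw [jlat_coe, hnl]
        show ((∑ i, (b.equivFun (x : EE N) i) • b i : EE N) : Om p) = ((x : EE N) : Om p)
        rw [Module.Basis.sum_equivFun]
    have h4 : (jlat θ hρ hθ).range.index = (B1.addSubgroupOf (BB N ρ hρ)).index := by
      rw [← h3]
      exact (AddSubgroup.index_comap_of_surjective _ e.surjective).symm
    rw [h4]
    exact h2

/-- reduction modulo `p` -/
def redZ (P : Type*) : EqDir.PFun P ℤ_[p] →+ EqDir.PFun P (ZMod p) where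
  toFun f w := PadicInt.toZMod (f w : ℤ_[p])
  map_zero' := funext fun _ => map_zero _
  map_add' _ _ := funext fun _ => map_add _ _ _

theorem card_dual_aux {X : Type*} [AddCommGroup X] [Module (ZMod p) X] [Finite X] :
    Nat.card X = Nat.card (X →+ ZMod p) := by
  have h2 : Nat.card (X →+ ZMod p) = Nat.card (Module.Dual (ZMod p) X) :=
    Nat.card_congr
      { toFun := fun f => f.toZModLinearMap p
        invFun := fun f => f.toAddMonoidHom
        left_inv := fun f => by ext; rfl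
        right_inv := fun f => by ext; rfl }
  have : Module.Finite (ZMod p) X := Module.Finite.of_finite
  rw [h2, Module.natCard_eq_pow_finrank (K := ZMod p) (V := X),
    Module.natCard_eq_pow_finrank (K := ZMod p) (V := Module.Dual (ZMod p) X),
    Subspace.dual_finrank_eq]

theorem card_dual {X : Type*} [AddCommGroup X] [Finite X] (hX : ∀ x : X, p • x = 0) :
    Nat.card X = Nat.card (X →+ ZMod p) := by
  let _ : Module (ZMod p) X := AddCommGroup.zmodModule hX
  exact card_dual_aux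

/-- homomorphisms to the regular representation -/
theorem card_hom_reg {G : Type*} [Group G] {X : Type*} [AddCommGroup X] [DistribMulAction G X]
    [Finite X] [Finite G] (hX : ∀ x : X, p • x = 0) :
    Nat.card X ≤ Nat.card (HomG G X (EqDir.PFun G (ZMod p))) := by
  have : Finite (EqDir.PFun G (ZMod p)) := inferInstanceAs (Finite (G → ZMod p))
  have h1 : Nat.card X = Nat.card (X →+ ZMod p) := card_dual hX
  rw [h1]
  refine Nat.card_le_card_of_injective (fun l => (⟨
    { toFun := fun x g => l (g⁻¹ • x)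
      map_zero' := funext fun g => by rw [smul_zero, map_zero]; rfl
      map_add' := fun x y => funext fun g => by rw [smul_add, map_add]; rfl },
    fun h x => funext fun g => by
      show l (g⁻¹ • h • x) = l ((h⁻¹ * g)⁻¹ • x)
      rw [mul_inv_rev, inv_inv, mul_smul]⟩ : HomG G X (EqDir.PFun G (ZMod p)))) ?_
  intro l l' hll
  ext x
  have h2 := congrArg (fun F : HomG G X (EqDir.PFun G (ZMod p)) => F.1 x 1) hll
  have h3 : l ((1 : G)⁻¹ • x) = l' ((1 : G)⁻¹ • x) := h2
  rwa [inv_one, one_smul] at h3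

/-- **counting for the additive group**, residue characteristic `p` -/
theorem count_B (hN : IsOpen (N : Set (LG p))) {X : Type*} [AddCommGroup X]
    [DistribMulAction (LG p ⧸ N) X] [Finite X] (hXp : ∀ x : X, p • x = 0)
    (hX : IsPr (LG p ⧸ N) p X) {ρ : ℝ} (hρ : 0 < ρ) :
    Nat.card X ≤ Nat.card (HomG (LG p ⧸ N) X (WB N p ρ hρ)) := by
  obtain ⟨θ, hθ, hinj, hidx⟩ := jlat_main hN hρ
  have : Finite (EqDir.PFun (LG p ⧸ N) (ZMod p)) :=
    inferInstanceAs (Finite ((LG p ⧸ N) → ZMod p))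
  have : Finite (Triv PUnit.{1}) := inferInstanceAs (Finite PUnit)
  have hp0 : (p : ℤ_[p]) ≠ 0 := Nat.cast_ne_zero.mpr hp.out.ne_zero
  have hp0' : (p : Om p) ≠ 0 := Nat.cast_ne_zero.mpr hp.out.ne_zero
  have key := hom_count hX (jlat θ hρ hθ) hinj (jlat_smul θ hρ hθ) hidx
    (WN := EqDir.PFun (LG p ⧸ N) (ZMod p)) (MA := Triv PUnit.{1}) (by
      intro f hf
      funext x
      have h1 : p • (f x : ℤ_[p]) = 0 := congrFun hf x
      rw [nsmul_eq_mul, mul_eq_zero] at h1
      exact h1.resolve_left hp0)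
    (piB N p ρ hρ) (piB_surj N p ρ hρ) (piB_smul N p ρ hρ) (piB_ker N p ρ hρ)
    (redZ (LG p ⧸ N)) (fun f => by
      choose F hF using fun x => (ZMod.ringHom_surjective (PadicInt.toZMod (p := p))) (f x)
      exact ⟨F, funext hF⟩)
    (fun g f => rfl)
    (fun f => by
      constructor
      · intro h
        have h1 : ∀ x, ∃ y : ℤ_[p], (f x : ℤ_[p]) = p * y := by
          intro x
          have h2 : PadicInt.toZMod (f x : ℤ_[p]) = 0 := congrFun h x
          rw [← RingHom.mem_ker, PadicInt.ker_toZMod, PadicInt.maximalIdeal_eq_span_p,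
            Ideal.mem_span_singleton] at h2
          exact h2
        choose F hF using h1
        refine ⟨F, funext fun x => ?_⟩
        show (f x : ℤ_[p]) = p • F x
        rw [hF, nsmul_eq_mul]
      · rintro ⟨F, rfl⟩
        funext x
        show PadicInt.toZMod (p • (F x : ℤ_[p])) = 0
        rw [map_nsmul]
        exact zmod_smul _)
    (i := 0) (fun a b _ => rfl) (fun g x => (smul_zero g).symm) (fun u => by
      constructor
      · intro h
        refine ⟨0, ?_⟩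
        have h1 : p • ((u : fix (Om p) N) : Om p) = 0 :=
          congrArg (fun z : Bo N ρ hρ => ((z : fix (Om p) N) : Om p)) h
        rw [nsmul_eq_mul, mul_eq_zero] at h1
        apply Subtype.ext
        apply Subtype.ext
        exact (h1.resolve_left hp0').symm
      · rintro ⟨x, rfl⟩
        exact smul_zero p)
  rw [key]
  have h1 : 0 < Nat.card (HomG (LG p ⧸ N) X (Triv PUnit.{1})) := Nat.card_pos
  calc Nat.card X ≤ Nat.card (HomG (LG p ⧸ N) X (EqDir.PFun (LG p ⧸ N) (ZMod p))) :=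
        card_hom_reg hXp
    _ ≤ _ := Nat.le_mul_of_pos_left _ h1

end

end Fermat.Agent.TWH1
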